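import Mathlib

/-!
Shared definitions for the Lagrange-resolvent route to S22 / S23
(finite generation of the lattice of q-coefficient functionals on `S_k(Γ₀(N))`).
-/

set_option autoImplicit false

namespace Fermat.Agent.S22

open CongruenceSubgroup
open scoped MatrixGroups ModularForm

/-- The subring `ℤ[ζ_N]` of `ℂ`, where `ζ_N = exp(2πi/N)`. -/
noncomputable def zetaRing (N : ℕ) : Subalgebra ℤ ℂ :=
  Algebra.adjoin ℤ {Complex.exp (2 * Real.pi * Complex.I / N)}

/-- The finite coset space `SL(2,ℤ) / Γ₀(N)`, in the form used by Mathlib's `NormTrace`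
(`SlashInvariantForm.quotientFunc`, `ModularForm.trace`, `ModularForm.norm`). -/
abbrev Q (N : ℕ) : Type :=
  𝒮ℒ ⧸ ((Gamma0 N : Subgroup (GL (Fin 2) ℝ)).subgroupOf 𝒮ℒ)

noncomputable instance Q.instFintype (N : ℕ) [NeZero N] : Fintype (Q N) := Fintype.ofFinite _

noncomputable instance Q.instDecidableEq (N : ℕ) : DecidableEq (Q N) := Classical.decEq _

/-- The trivial coset. -/
def q0 (N : ℕ) : Q N := QuotientGroup.mk 1

end Fermat.Agent.S22
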