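import Mathlib
import Fermat.Agent.S22.Defs

set_option autoImplicit false

namespace Fermat.Agent.S22

open UpperHalfPlane ModularForm CongruenceSubgroup SlashInvariantForm
open scoped MatrixGroups ModularForm Manifold

variable {N : ℕ} [NeZero N] {k : ℤ}

namespace Esymm

omit [NeZero N] in
theorem mdiff_quotientFunc (f : ModularForm (Gamma0 N) k) (q : Q N) : MDiff (quotientFunc f q) :=
  Quotient.inductionOn q fun r => (ModularForm.translate f r.1⁻¹).holo'

theorem esymm_slash (f : ModularForm (Gamma0 N) k) (i : ℕ) {h : GL (Fin 2) ℝ} (hh : h ∈ 𝒮ℒ) :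
    (∑ S ∈ (Finset.univ : Finset (Q N)).powersetCard i, ∏ q ∈ S, quotientFunc f q) ∣[(i : ℤ) * k] h
      = ∑ S ∈ (Finset.univ : Finset (Q N)).powersetCard i, ∏ q ∈ S, quotientFunc f q := by
  rw [SlashAction.sum_slash]
  have key : ∀ S ∈ (Finset.univ : Finset (Q N)).powersetCard i,
      (∏ q ∈ S, quotientFunc f q) ∣[(i : ℤ) * k] h
        = ∏ q ∈ S, quotientFunc f ((⟨h, hh⟩ : 𝒮ℒ)⁻¹ • q) := by
    intro S hS
    have hcard : S.card = i := (Finset.mem_powersetCard.mp hS).2
    rw [show (i : ℤ) * k = k * S.card by rw [hcard, mul_comm], ModularForm.prod_slash]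
    simp [Subgroup.HasDetPlusMinusOne.abs_det hh, quotientFunc_smul f hh,
      -Matrix.GeneralLinearGroup.val_det_apply]
  rw [Finset.sum_congr rfl key]
  refine Finset.sum_equiv (Equiv.finsetCongr (MulAction.toPerm ((⟨h, hh⟩ : 𝒮ℒ)⁻¹))) ?_ ?_
  · intro S
    simp [Finset.mem_powersetCard]
  · intro S _
    simp [Finset.prod_map]

theorem bdd_quotientFunc_slash (f : ModularForm (Gamma0 N) k) (q : Q N) (γ : GL (Fin 2) ℝ)
    (h : IsCusp (γ • OnePoint.infty) 𝒮ℒ) : IsBoundedAtImInfty (quotientFunc f q ∣[k] γ) := by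
  induction q using Quotient.inductionOn with
  | h r =>
    obtain ⟨r, hr⟩ := r
    refine (ModularForm.translate f _).bdd_at_cusps' ?_ γ rfl
    simpa using h.of_isFiniteRelIndex_conj hr

theorem esymm_bdd (f : ModularForm (Gamma0 N) k) (i : ℕ) (γ : GL (Fin 2) ℝ)
    (h : IsCusp (γ • OnePoint.infty) 𝒮ℒ) :
    IsBoundedAtImInfty ((∑ S ∈ (Finset.univ : Finset (Q N)).powersetCard i,
      ∏ q ∈ S, quotientFunc f q) ∣[(i : ℤ) * k] γ) := by
  rw [SlashAction.sum_slash]
  refine (Filter.boundedFilterSubmodule ℂ atImInfty).sum_mem fun S hS => ?_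
  have hcard : S.card = i := (Finset.mem_powersetCard.mp hS).2
  rw [show (i : ℤ) * k = k * S.card by rw [hcard, mul_comm], ModularForm.prod_slash]
  exact Filter.BoundedAtFilter.smul _
    (Filter.BoundedAtFilter.prod S fun q _ => bdd_quotientFunc_slash f q γ h)

end Esymm

/-- The `i`-th elementary symmetric function of the translates of `f`, as a level one form. -/
noncomputable def esymmForm (f : ModularForm (Gamma0 N) k) (i : ℕ) : ModularForm 𝒮ℒ (i * k) where
  toFun := ∑ S ∈ (Finset.univ : Finset (Q N)).powersetCard i, ∏ q ∈ S, quotientFunc f q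
  slash_action_eq' _ hh := Esymm.esymm_slash f i hh
  holo' := MDifferentiable.sum fun S _ => MDifferentiable.prod fun q _ =>
    Esymm.mdiff_quotientFunc f q
  bdd_at_cusps' hc γ hγ := by
    subst hγ
    exact Esymm.esymm_bdd f i γ hc

theorem esymmForm_apply (f : ModularForm (Gamma0 N) k) (i : ℕ) (τ : ℍ) :
    esymmForm f i τ = ∑ S ∈ (Finset.univ : Finset (Q N)).powersetCard i,
      ∏ q ∈ S, quotientFunc f q τ := by
  change (∑ S ∈ (Finset.univ : Finset (Q N)).powersetCard i, ∏ q ∈ S, quotientFunc f q) τ = _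
  simp [Finset.sum_apply, Finset.prod_apply]


omit [NeZero N] in
theorem quotientFunc_q0 (f : ModularForm (Gamma0 N) k) : quotientFunc f (q0 N) = f := by
  change quotientFunc f ⟦(1 : 𝒮ℒ)⟧ = f
  rw [quotientFunc_mk]
  simp

omit [NeZero N] in
theorem quotientFunc_exists (f : ModularForm (Gamma0 N) k) (q : Q N) :
    ∃ γ : SL(2, ℤ), quotientFunc f q = (f : ℍ → ℂ) ∣[k] γ := by
  induction q using Quotient.inductionOn with
  | h r =>
    obtain ⟨r, ⟨γ, rfl⟩⟩ := r
    refine ⟨γ⁻¹, ?_⟩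
    have hinv : ((γ⁻¹ : SL(2, ℤ)) : GL (Fin 2) ℝ) = (Matrix.SpecialLinearGroup.mapGL ℝ γ)⁻¹ :=
      map_inv (Matrix.SpecialLinearGroup.mapGL ℝ) γ
    rw [quotientFunc_mk, SL_slash, hinv]

omit [NeZero N] in
theorem quotientFunc_of_ne_q0 (f : ModularForm (Gamma0 N) k) (q : Q N) (hq : q ≠ q0 N) :
    ∃ γ : SL(2, ℤ), γ ∉ Gamma0 N ∧ quotientFunc f q = (f : ℍ → ℂ) ∣[k] γ := by
  induction q using Quotient.inductionOn with
  | h r =>
    obtain ⟨r, ⟨γ, rfl⟩⟩ := r
    refine ⟨γ⁻¹, ?_, ?_⟩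
    · intro hmem
      apply hq
      change (QuotientGroup.mk _ : Q N) = QuotientGroup.mk 1
      rw [QuotientGroup.eq]
      rw [mul_one, Subgroup.mem_subgroupOf]
      exact ⟨γ⁻¹, hmem, by simp [map_inv]⟩
    · have hinv : ((γ⁻¹ : SL(2, ℤ)) : GL (Fin 2) ℝ) = (Matrix.SpecialLinearGroup.mapGL ℝ γ)⁻¹ :=
        map_inv (Matrix.SpecialLinearGroup.mapGL ℝ) γ
      rw [quotientFunc_mk, SL_slash, hinv]


namespace Esymm

theorem pow_slash_SL2 (k : ℤ) (A : SL(2, ℤ)) (g : ℍ → ℂ) (b : ℕ) :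
    (g ^ b) ∣[(b : ℤ) * k] A = (g ∣[k] A) ^ b := by
  induction b with
  | zero => simp [is_invariant_one]
  | succ b ih =>
    rw [pow_succ, pow_succ, ← ih, ← mul_slash_SL2]
    congr 1
    push_cast
    ring

theorem quotientFunc_mul_pow (f : ModularForm (Gamma0 N) k) (x : ModularForm (Gamma0 N) 12)
    (b : ℕ) (q : Q N) :
    quotientFunc (f.mul (x.pow b)) q = quotientFunc f q * quotientFunc x q ^ b := by
  induction q using Quotient.inductionOn with
  | h r =>
    obtain ⟨r, ⟨γ, rfl⟩⟩ := r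
    have hinv : ((γ⁻¹ : SL(2, ℤ)) : GL (Fin 2) ℝ) = (Matrix.SpecialLinearGroup.mapGL ℝ γ)⁻¹ :=
      map_inv (Matrix.SpecialLinearGroup.mapGL ℝ) γ
    simp only [quotientFunc_mk]
    rw [← hinv, ← SL_slash, ← SL_slash, ← SL_slash, ModularForm.coe_mul, ModularForm.coe_pow,
      mul_slash_SL2, pow_slash_SL2]

omit [NeZero N] in
theorem quotientFunc_add (f g : ModularForm (Gamma0 N) k) (q : Q N) :
    quotientFunc (f + g) q = quotientFunc f q + quotientFunc g q := by
  induction q using Quotient.inductionOn with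
  | h r =>
    simp only [quotientFunc_mk]
    rw [FunLike.coe_add, SlashAction.add_slash]

omit [NeZero N] in
theorem quotientFunc_smul_left (c : ℂ) (f : ModularForm (Gamma0 N) k) (q : Q N) :
    quotientFunc (c • f) q = c • quotientFunc f q := by
  induction q using Quotient.inductionOn with
  | h r =>
    obtain ⟨r, ⟨γ, rfl⟩⟩ := r
    have hinv : ((γ⁻¹ : SL(2, ℤ)) : GL (Fin 2) ℝ) = (Matrix.SpecialLinearGroup.mapGL ℝ γ)⁻¹ :=
      map_inv (Matrix.SpecialLinearGroup.mapGL ℝ) γ
    simp only [quotientFunc_mk]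
    rw [← hinv, ← SL_slash, ← SL_slash, FunLike.coe_smul, SL_smul_slash]

theorem trace_mul_pow_apply (x : ModularForm (Gamma0 N) 12) (b : ℕ)
    (f : ModularForm (Gamma0 N) k) (τ : ℍ) :
    ModularForm.trace 𝒮ℒ (f.mul (x.pow b)) τ
      = ∑ q : Q N, quotientFunc f q τ * quotientFunc x q τ ^ b := by
  rw [ModularForm.coe_trace, Finset.sum_apply]
  refine Finset.sum_congr rfl fun q _ => ?_
  rw [quotientFunc_mul_pow, Pi.mul_apply, Pi.pow_apply]

end Esymm

/-- `f ↦ Tr (f · x ^ b)`, a linear map to level one forms. -/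
noncomputable def trMulPow (x : ModularForm (Gamma0 N) 12) (b : ℕ) :
    ModularForm (Gamma0 N) k →ₗ[ℂ] ModularForm 𝒮ℒ (k + b * 12) where
  toFun f := ModularForm.trace 𝒮ℒ (f.mul (x.pow b))
  map_add' f g := by
    ext τ
    rw [add_apply, Esymm.trace_mul_pow_apply, Esymm.trace_mul_pow_apply,
      Esymm.trace_mul_pow_apply, ← Finset.sum_add_distrib]
    refine Finset.sum_congr rfl fun q _ => ?_
    rw [Esymm.quotientFunc_add, Pi.add_apply, add_mul]
  map_smul' c f := by
    ext τ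
    rw [RingHom.id_apply, smul_apply, Esymm.trace_mul_pow_apply,
      Esymm.trace_mul_pow_apply, Finset.smul_sum]
    refine Finset.sum_congr rfl fun q _ => ?_
    rw [Esymm.quotientFunc_smul_left, Pi.smul_apply, smul_mul_assoc]

theorem trMulPow_apply (x : ModularForm (Gamma0 N) 12) (b : ℕ) (f : ModularForm (Gamma0 N) k)
    (τ : ℍ) : trMulPow x b f τ = ∑ q : Q N, quotientFunc f q τ * quotientFunc x q τ ^ b :=
  Esymm.trace_mul_pow_apply x b f τ

/-- A cusp form regarded as a modular form. -/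
noncomputable def cuspToMod : CuspForm (Gamma0 N) k →ₗ[ℂ] ModularForm (Gamma0 N) k where
  toFun f := ModularFormClass.modularForm f
  map_add' f g := by ext τ; rfl
  map_smul' c f := by ext τ; rfl

omit [NeZero N] in
theorem cuspToMod_coe (f : CuspForm (Gamma0 N) k) : (cuspToMod f : ℍ → ℂ) = f := rfl


theorem esymmForm_cuspToMod_coeff_zero (f : CuspForm (Gamma0 N) k) (i : ℕ) (hi : 0 < i) :
    (qExpansion 1 (esymmForm (cuspToMod f) i)).coeff 0 = 0 := by
  have hzero : IsZeroAtImInfty (esymmForm (cuspToMod f) i : ℍ → ℂ) := by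
    have hq : ∀ q : Q N, Filter.Tendsto (quotientFunc (cuspToMod f) q) atImInfty (nhds 0) := by
      intro q
      obtain ⟨γ, hγ⟩ := quotientFunc_exists (cuspToMod f) q
      rw [hγ, cuspToMod_coe]
      exact CuspFormClass.zero_at_infty_slash f γ
    have hS : ∀ S ∈ (Finset.univ : Finset (Q N)).powersetCard i,
        Filter.Tendsto (fun τ => ∏ q ∈ S, quotientFunc (cuspToMod f) q τ) atImInfty (nhds 0) := by
      intro S hS
      have hcard : S.card = i := (Finset.mem_powersetCard.mp hS).2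
      have h1 := tendsto_finsetProd S (fun q _ => hq q)
      have h2 : (∏ q ∈ S, (0 : ℂ)) = 0 := by
        rw [Finset.prod_const, hcard]
        exact zero_pow hi.ne'
      rw [h2] at h1
      exact h1
    have h3 := tendsto_finsetSum ((Finset.univ : Finset (Q N)).powersetCard i) hS
    rw [Finset.sum_const_zero] at h3
    have h4 : (esymmForm (cuspToMod f) i : ℍ → ℂ)
        = fun τ => ∑ S ∈ (Finset.univ : Finset (Q N)).powersetCard i,
            ∏ q ∈ S, quotientFunc (cuspToMod f) q τ := by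
      funext τ
      exact esymmForm_apply _ _ _
    rw [IsZeroAtImInfty, Filter.ZeroAtFilter, h4]
    exact h3
  rw [qExpansion_coeff]
  simp [hzero.cuspFunction_apply_zero one_pos]

end Fermat.Agent.S22
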