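import Mathlib

set_option autoImplicit false

namespace Fermat.Agent.S22.AbsAlg

variable {K : Type*} [CommRing K] {V : Type*} [AddCommGroup V] [Module K V]

/-- Every element of the `ℤ`-algebra generated by `gens` preserves (by precomposition) a
`ℤ`-lattice `Λ` of functionals preserved by the generators. -/
theorem comp_mem_of_mem_adjoin (gens : Set (Module.End K V))
    (Λ : Submodule ℤ (Module.Dual K V))
    (hstab : ∀ t ∈ gens, ∀ l ∈ Λ, l.comp t ∈ Λ)
    {a : Module.End K V} (ha : a ∈ Algebra.adjoin ℤ gens) :
    ∀ l ∈ Λ, l.comp a ∈ Λ := by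
  induction ha using Algebra.adjoin_induction with
  | mem t ht => exact hstab t ht
  | algebraMap n =>
    intro l hl
    have : l.comp (algebraMap ℤ (Module.End K V) n) = n • l := by
      ext v
      simp
    rw [this]
    exact Λ.smul_mem n hl
  | add a b _ _ iha ihb =>
    intro l hl
    have : l.comp (a + b) = l.comp a + l.comp b := by
      ext v; simp
    rw [this]
    exact Λ.add_mem (iha l hl) (ihb l hl)
  | mul a b _ _ iha ihb =>
    intro l hl
    have : l.comp (a * b) = (l.comp a).comp b := by
      ext v; simp [Module.End.mul_apply]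
    rw [this]
    exact ihb _ (iha l hl)

/-- The action of the adjoined algebra on the lattice of functionals. -/
noncomputable def actOn (gens : Set (Module.End K V)) (Λ : Submodule ℤ (Module.Dual K V))
    (hstab : ∀ t ∈ gens, ∀ l ∈ Λ, l.comp t ∈ Λ) :
    (Algebra.adjoin ℤ gens) →ₗ[ℤ] (Λ →ₗ[ℤ] Λ) where
  toFun a :=
    { toFun := fun l => ⟨(l : Module.Dual K V).comp (a : Module.End K V),
        comp_mem_of_mem_adjoin gens Λ hstab a.2 l l.2⟩
      map_add' := fun l m => by
        apply Subtype.ext
        ext v
        simp
      map_smul' := fun n l => by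
        apply Subtype.ext
        ext v
        simp }
  map_add' a b := by
    ext l v
    simp
  map_smul' n a := by
    ext l v
    simp

/-- **Abstract finiteness criterion.** If a finitely generated `ℤ`-module `Λ` of linear
functionals on `V` separates the points of `V` and is stable under precomposition with each
operator in `gens`, then the `ℤ`-algebra generated by `gens` is a finite `ℤ`-module. -/
theorem finite_adjoin_of_stable_lattice (gens : Set (Module.End K V))
    (Λ : Submodule ℤ (Module.Dual K V)) (hfg : Λ.FG)
    (hsep : ∀ v : V, (∀ l ∈ Λ, l v = 0) → v = 0)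
    (hstab : ∀ t ∈ gens, ∀ l ∈ Λ, l.comp t ∈ Λ) :
    Module.Finite ℤ (Algebra.adjoin ℤ gens) := by
  have hΛ : Module.Finite ℤ Λ := Module.Finite.iff_fg.mpr hfg
  have hinj : Function.Injective (actOn gens Λ hstab) := by
    rw [injective_iff_map_eq_zero]
    intro a ha
    apply Subtype.ext
    apply LinearMap.ext
    intro v
    apply hsep
    intro l hl
    have h1 := LinearMap.congr_fun ha ⟨l, hl⟩
    have h2 := congrArg (fun m : Λ => (m : Module.Dual K V) v) h1
    simpa [actOn] using h2
  exact Module.Finite.of_injective (actOn gens Λ hstab) hinj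

end Fermat.Agent.S22.AbsAlg
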