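import Mathlib
import Fermat.Prelude.Def_ModularForm_HeckeOperator
import Fermat.Prelude.Sol.S_ModularForm_heckeT_slash_eq_self_of_mem_Gamma0
import Fermat.Agent.S22.Defs

/-!
# M3a: the form `x(τ) = N^11 Δ(Nτ)` on `Γ₀(N)` and its `SL(2,ℤ)`-conjugates
-/

set_option autoImplicit false

namespace Fermat.Agent.S22

open UpperHalfPlane ModularForm CongruenceSubgroup SlashInvariantForm
open scoped MatrixGroups ModularForm Manifold

namespace ConjDef

open P2MW.S_ModularForm_heckeT_slash_eq_self_of_mem_Gamma0.ModularForm.HeckeSlashInvariance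

open scoped Pointwise in
theorem gamma0_le_conj (N : ℕ) [NeZero N] :
    (Gamma0 N : Subgroup (GL (Fin 2) ℝ)) ≤
      ConjAct.toConjAct (ModularForm.heckeDiagMatrix N)⁻¹ • 𝒮ℒ := by
  intro γ hγ
  obtain ⟨g, hg, rfl⟩ := hγ
  rw [SetLike.mem_coe, Gamma0_mem] at hg
  obtain ⟨e, he⟩ : (N : ℤ) ∣ g 1 0 := (ZMod.intCast_zmod_eq_zero_iff_dvd _ _).mp hg
  obtain ⟨g', -, hg'⟩ := heckeDiagMatrix_mul_of_eq' (p := N) (NeZero.ne N) g e he
  rw [map_inv, Subgroup.mem_inv_pointwise_smul_iff, ConjAct.toConjAct_smul]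
  refine ⟨g', ?_⟩
  rw [eq_mul_inv_iff_mul_eq]
  exact hg'.symm

end ConjDef

/-- `x(τ) = N^11 Δ(Nτ)` as a modular form of weight 12 on `Γ₀(N)`. -/
noncomputable def xForm (N : ℕ) [NeZero N] : ModularForm (Gamma0 N) 12 where
  toFun := ModularForm.discriminant ∣[(12 : ℤ)] ModularForm.heckeDiagMatrix N
  slash_action_eq' γ hγ :=
    (ModularForm.translate CuspForm.discriminant (ModularForm.heckeDiagMatrix N)).slash_action_eq'
      γ (ConjDef.gamma0_le_conj N hγ)
  holo' := (ModularForm.translate CuspForm.discriminant (ModularForm.heckeDiagMatrix N)).holo'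
  bdd_at_cusps' hc :=
    (ModularForm.translate CuspForm.discriminant (ModularForm.heckeDiagMatrix N)).bdd_at_cusps'
      (hc.mono (ConjDef.gamma0_le_conj N))

theorem xForm_coe (N : ℕ) [NeZero N] :
    (xForm N : ℍ → ℂ) = ModularForm.discriminant ∣[(12 : ℤ)] ModularForm.heckeDiagMatrix N := rfl

namespace ConjDef

open P2MW.S_ModularForm_heckeT_slash_eq_self_of_mem_Gamma0.ModularForm.HeckeSlashInvariance

theorem det_upperTriangularGL (a b d : ℝ) (had : a * d ≠ 0) :
    ((ModularForm.upperTriangularGL a b d had).det : ℝ) = a * d := by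
  rw [Matrix.GeneralLinearGroup.val_det_apply, ModularForm.val_upperTriangularGL,
    Matrix.det_fin_two_of]
  ring

theorem slash_upperTriangularGL_apply (k : ℤ) (a b d : ℝ) (ha : 0 < a) (hd : 0 < d)
    (f : ℍ → ℂ) (τ : ℍ) :
    (f ∣[k] ModularForm.upperTriangularGL a b d (mul_pos ha hd).ne') τ =
      ((a * d : ℝ) : ℂ) ^ (k - 1) * ((d : ℂ) ^ k)⁻¹ *
        f (ofComplex ((a * (τ : ℂ) + b) / d)) := by
  have hdet : 0 < ((ModularForm.upperTriangularGL a b d (mul_pos ha hd).ne').det : ℝ) := by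
    rw [det_upperTriangularGL]; exact mul_pos ha hd
  have hσ : UpperHalfPlane.σ (ModularForm.upperTriangularGL a b d (mul_pos ha hd).ne') =
      .refl ℝ ℂ := by
    rw [UpperHalfPlane.σ, if_pos hdet]
  have hden : UpperHalfPlane.denom (ModularForm.upperTriangularGL a b d (mul_pos ha hd).ne') τ
      = d := by
    simp [UpperHalfPlane.denom, ModularForm.val_upperTriangularGL]
  have hsmul : (ModularForm.upperTriangularGL a b d (mul_pos ha hd).ne' • τ : ℍ) =
      ofComplex ((a * (τ : ℂ) + b) / d) := by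
    rw [← UpperHalfPlane.ofComplex_apply
      (ModularForm.upperTriangularGL a b d (mul_pos ha hd).ne' • τ)]
    congr 1
    rw [UpperHalfPlane.coe_smul_of_det_pos hdet]
    simp [UpperHalfPlane.num, UpperHalfPlane.denom, ModularForm.val_upperTriangularGL]
  rw [ModularForm.slash_apply, hσ, det_upperTriangularGL, hden, hsmul]
  simp only [ContinuousAlgEquiv.refl_apply]
  rw [abs_of_pos (mul_pos ha hd), zpow_neg]
  ring

/-- The integer-matrix decomposition `diag(N,1)·γ = γ'·[a b; 0 d]`. -/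
theorem exists_decomp (N : ℕ) [NeZero N] (γ : SL(2, ℤ)) :
    ∃ (a d : ℕ) (b : ℤ) (γ' : SL(2, ℤ)), a * d = N ∧ 0 < a ∧ 0 < d ∧
      (γ ∉ Gamma0 N → 1 < d) ∧
      (N : ℤ) * γ 0 0 = γ' 0 0 * a ∧ (N : ℤ) * γ 0 1 = γ' 0 0 * b + γ' 0 1 * d ∧
      γ 1 0 = γ' 1 0 * a ∧ γ 1 1 = γ' 1 0 * b + γ' 1 1 * d := by
  have hN : 0 < N := Nat.pos_of_ne_zero (NeZero.ne N)
  have hdet := det_eq γ
  generalize γ 0 0 = p at hdet ⊢
  generalize γ 0 1 = q at hdet ⊢
  generalize hr : γ 1 0 = r at hdet ⊢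
  generalize γ 1 1 = s at hdet ⊢
  set g : ℕ := Nat.gcd N r.natAbs with hg
  have hgpos : 0 < g := Nat.gcd_pos_of_pos_left _ hN
  obtain ⟨d, hd⟩ : g ∣ N := Nat.gcd_dvd_left _ _
  have hgr : (g : ℤ) ∣ r := by
    rw [Int.natCast_dvd]; exact Nat.gcd_dvd_right _ _
  obtain ⟨y, hy⟩ := hgr
  have hdpos : 0 < d := by
    rcases Nat.eq_zero_or_pos d with h | h
    · rw [h, mul_zero] at hd; omega
    · exact h
  -- coprimality
  have hcop1 : IsCoprime (d : ℤ) y := by
    rw [Int.isCoprime_iff_gcd_eq_one]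
    have h1 : Int.gcd (N : ℤ) r = g := by
      rw [hg, Int.gcd_eq_natAbs]; simp
    have h2 : Int.gcd ((g : ℤ) * d) ((g : ℤ) * y) = g * Int.gcd (d : ℤ) y := by
      rw [Int.gcd_mul_left]; simp
    rw [hd, hy] at h1
    push_cast at h1
    rw [h2] at h1
    exact Nat.eq_of_mul_eq_mul_left hgpos (by rw [h1, mul_one])
  have hcop2 : IsCoprime p y := by
    have : IsCoprime p r := ⟨s, -q, by linarith⟩
    rw [hy] at this
    exact this.of_mul_right_right
  obtain ⟨A, B, hAB⟩ : IsCoprime ((d : ℤ) * p) y := hcop1.mul_left hcop2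
  refine ⟨g, d, A * N * q + B * s, ⟨!![(d : ℤ) * p, -B; y, A], ?_⟩, hd.symm, hgpos, hdpos,
    ?_, ?_, ?_, ?_, ?_⟩
  · rw [Matrix.det_fin_two_of]; linear_combination hAB
  · intro hγ
    by_contra hd1
    have hd1' : d = 1 := by omega
    apply hγ
    rw [Gamma0_mem, hr, ZMod.intCast_zmod_eq_zero_iff_dvd]
    rw [hd1', mul_one] at hd
    rw [hy, hd]
    exact Dvd.intro _ rfl
  · simp only [Matrix.of_apply, Matrix.cons_val', Matrix.cons_val_zero,
      Matrix.cons_val_one]
    rw [hd]; push_cast; ring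
  · simp only [Matrix.of_apply, Matrix.cons_val', Matrix.cons_val_zero,
      Matrix.cons_val_one]
    have hNZ : (N : ℤ) = g * d := by exact_mod_cast hd
    rw [hNZ]
    linear_combination (-(g : ℤ) * d * q) * hAB + (-(B * d)) * hdet + (-(B * d * q)) * hy
  · simp only [Matrix.of_apply, Matrix.cons_val', Matrix.cons_val_zero,
      Matrix.cons_val_one]
    rw [hy]; ring
  · simp only [Matrix.of_apply, Matrix.cons_val', Matrix.cons_val_zero,
      Matrix.cons_val_one]
    have hNZ : (N : ℤ) = g * d := by exact_mod_cast hd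
    rw [hNZ]
    linear_combination (-s) * hAB + (A * d) * hdet + (A * d * q) * hy

end ConjDef

open P2MW.S_ModularForm_heckeT_slash_eq_self_of_mem_Gamma0.ModularForm.HeckeSlashInvariance in
theorem xForm_slash (N : ℕ) [NeZero N] (γ : SL(2, ℤ)) :
    ∃ (a d : ℕ) (b : ℤ), a * d = N ∧ (γ ∉ Gamma0 N → 1 < d) ∧ ∀ τ : ℍ,
      ((xForm N : ℍ → ℂ) ∣[(12 : ℤ)] γ) τ =
        (N : ℂ) ^ 11 * ((d : ℂ) ^ 12)⁻¹ *
          ModularForm.discriminant (ofComplex ((a * (τ : ℂ) + b) / d)) := by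
  obtain ⟨a, d, b, γ', had, ha, hd, hγ, h00, h01, h10, h11⟩ := ConjDef.exists_decomp N γ
  refine ⟨a, d, b, had, hγ, fun τ => ?_⟩
  have haR : (0 : ℝ) < a := by exact_mod_cast ha
  have hdR : (0 : ℝ) < d := by exact_mod_cast hd
  have hmat : ModularForm.heckeDiagMatrix N * Matrix.SpecialLinearGroup.mapGL ℝ γ =
      Matrix.SpecialLinearGroup.mapGL ℝ γ' *
        ModularForm.upperTriangularGL a b d (mul_pos haR hdR).ne' := by
    have e00 := congrArg (Int.cast : ℤ → ℝ) h00
    have e01 := congrArg (Int.cast : ℤ → ℝ) h01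
    have e10 := congrArg (Int.cast : ℤ → ℝ) h10
    have e11 := congrArg (Int.cast : ℤ → ℝ) h11
    push_cast at e00 e01 e10 e11
    ext i j
    fin_cases i <;> fin_cases j <;>
      simp [NeZero.ne N, Matrix.mul_apply, Fin.sum_univ_two]
    · linear_combination e00
    · linear_combination e01
    · linear_combination e10
    · linear_combination e11
  have hΔ : ModularForm.discriminant ∣[(12 : ℤ)] (Matrix.SpecialLinearGroup.mapGL ℝ γ') =
      ModularForm.discriminant :=
    CuspForm.discriminant.slash_action_eq' _ ⟨γ', rfl⟩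
  have hmat' : ModularForm.heckeDiagMatrix N * (γ : GL (Fin 2) ℝ) =
      Matrix.SpecialLinearGroup.mapGL ℝ γ' *
        ModularForm.upperTriangularGL a b d (mul_pos haR hdR).ne' := hmat
  rw [xForm_coe, ModularForm.SL_slash, ← SlashAction.slash_mul, hmat', SlashAction.slash_mul, hΔ,
    ConjDef.slash_upperTriangularGL_apply 12 a b d haR hdR]
  have hN : ((a : ℝ) * (d : ℝ) : ℝ) = (N : ℝ) := by exact_mod_cast had
  rw [hN]
  norm_num

end Fermat.Agent.S22
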