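import Mathlib
import Fermat.Agent.S22.Defs

/-!
# q-expansion of `τ ↦ F ((a τ + b) / d)`

Module M3c of the Lagrange-resolvent route to S22: if `F` is `1`-periodic, holomorphic and bounded
at `i∞`, then `τ ↦ F ((a τ + b) / d)` is `a d`-periodic, holomorphic, bounded at `i∞`, and its
`q_{ad}`-expansion is obtained from the `q`-expansion of `F` by `n ↦ a² n` and a twist by a root
of unity.
-/

set_option autoImplicit false

namespace Fermat.Agent.S22

open UpperHalfPlane ModularForm CongruenceSubgroup SlashInvariantForm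
open scoped MatrixGroups ModularForm Manifold

namespace QExpAffine

lemma im_affine (a d : ℕ) (b : ℤ) (w : ℂ) :
    ((a * w + b) / d).im = a * w.im / d := by
  have h1 : ((a : ℂ) * w + b) / d = ((a : ℂ) * w + b) / ((d : ℝ) : ℂ) := by push_cast; rfl
  rw [h1, Complex.div_ofReal_im]
  simp

lemma im_affine_pos (a d : ℕ) (ha : 0 < a) (hd : 0 < d) (b : ℤ) (w : ℂ) (hw : 0 < w.im) :
    0 < ((a * w + b) / d).im := by
  rw [im_affine]
  positivity

/-- The function `τ ↦ F ((a τ + b) / d)`. -/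
noncomputable def aff (F : ℍ → ℂ) (a d : ℕ) (b : ℤ) : ℍ → ℂ :=
  fun τ : ℍ => F (ofComplex ((a * (τ : ℂ) + b) / d))

lemma aff_periodic (F : ℍ → ℂ) (hper : Function.Periodic (F ∘ ofComplex) 1)
    (a d : ℕ) (hd : 0 < d) (b : ℤ) :
    Function.Periodic (aff F a d b ∘ ofComplex) ((a * d : ℕ) : ℝ) := by
  have hdC : (d : ℂ) ≠ 0 := by exact_mod_cast hd.ne'
  intro w
  by_cases hw : 0 < w.im
  · have hw' : 0 < (w + ((a * d : ℕ) : ℝ)).im := by simpa using hw
    simp only [aff, Function.comp_apply, ofComplex_apply_of_im_pos hw',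
      ofComplex_apply_of_im_pos hw]
    have key := hper.nat_mul (a ^ 2) ((a * w + b) / d)
    simp only [Function.comp_apply] at key
    rw [← key]
    congr 2
    push_cast
    field_simp
    ring
  · have hw0 : w.im ≤ 0 := not_lt.mp hw
    have hw' : (w + ((a * d : ℕ) : ℝ)).im ≤ 0 := by simpa using hw0
    simp only [Function.comp_apply, ofComplex_apply_of_im_nonpos hw',
      ofComplex_apply_of_im_nonpos hw0]

lemma aff_mdiff (F : ℍ → ℂ) (hhol : MDiff F) (a d : ℕ) (ha : 0 < a) (hd : 0 < d) (b : ℤ) :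
    MDiff (aff F a d b) := by
  intro τ
  rw [UpperHalfPlane.mdifferentiableAt_iff]
  have hpos : 0 < ((a * (τ : ℂ) + b) / d).im := im_affine_pos a d ha hd b τ τ.im_pos
  have hF : DifferentiableAt ℂ (F ∘ ofComplex) ((a * (τ : ℂ) + b) / d) := by
    have := UpperHalfPlane.mdifferentiableAt_iff.mp (hhol ⟨_, hpos⟩)
    simpa using this
  have hcomp : DifferentiableAt ℂ ((F ∘ ofComplex) ∘ (fun w : ℂ => (a * w + b) / d))
      (τ : ℂ) := by
    apply DifferentiableAt.comp
    · exact hF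
    · fun_prop
  apply hcomp.congr_of_eventuallyEq
  have hopen : {w : ℂ | 0 < w.im} ∈ nhds (τ : ℂ) :=
    (isOpen_lt continuous_const Complex.continuous_im).mem_nhds τ.im_pos
  filter_upwards [hopen] with w hw
  simp [aff, Function.comp_apply, ofComplex_apply_of_im_pos hw]

lemma aff_bdd (F : ℍ → ℂ) (hbdd : IsBoundedAtImInfty F) (a d : ℕ) (ha : 0 < a) (hd : 0 < d)
    (b : ℤ) : IsBoundedAtImInfty (aff F a d b) := by
  rw [UpperHalfPlane.isBoundedAtImInfty_iff] at hbdd ⊢
  obtain ⟨M, A, hMA⟩ := hbdd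
  refine ⟨M, A * d / a, fun z hz => ?_⟩
  have hpos : 0 < ((a * (z : ℂ) + b) / d).im := im_affine_pos a d ha hd b z z.im_pos
  simp only [aff]
  rw [ofComplex_apply_of_im_pos hpos]
  apply hMA
  show A ≤ ((a * (z : ℂ) + b) / d).im
  rw [im_affine]
  rw [le_div_iff₀ (by positivity)]
  rw [div_le_iff₀ (by positivity)] at hz
  have : (z : ℂ).im = z.im := rfl
  rw [this]
  linarith

/-- The candidate coefficients. -/
noncomputable def affCoeff (F : ℍ → ℂ) (a d : ℕ) (b : ℤ) (m : ℕ) : ℂ :=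
  if a ^ 2 ∣ m then Complex.exp (2 * Real.pi * Complex.I * b / d) ^ (m / a ^ 2) *
    (qExpansion 1 F).coeff (m / a ^ 2) else 0

lemma affCoeff_mul (F : ℍ → ℂ) (a d : ℕ) (ha : 0 < a) (b : ℤ) (n : ℕ) :
    affCoeff F a d b (a ^ 2 * n) =
      Complex.exp (2 * Real.pi * Complex.I * b / d) ^ n * (qExpansion 1 F).coeff n := by
  have h2 : 0 < a ^ 2 := by positivity
  simp only [affCoeff]
  rw [if_pos (dvd_mul_right _ _), Nat.mul_div_cancel_left _ h2]

lemma affCoeff_of_not_dvd (F : ℍ → ℂ) (a d : ℕ) (b : ℤ) (m : ℕ) (hm : ¬ a ^ 2 ∣ m) :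
    affCoeff F a d b m = 0 := by
  simp only [affCoeff]
  rw [if_neg hm]

lemma qParam_affine (a d : ℕ) (ha : 0 < a) (hd : 0 < d) (b : ℤ) (w : ℂ) :
    Function.Periodic.qParam (1 : ℝ) ((a * w + b) / d) =
      Complex.exp (2 * Real.pi * Complex.I * b / d) *
        Function.Periodic.qParam ((a * d : ℕ) : ℝ) w ^ (a ^ 2) := by
  have hdC : (d : ℂ) ≠ 0 := by exact_mod_cast hd.ne'
  have haC : (a : ℂ) ≠ 0 := by exact_mod_cast ha.ne'
  simp only [Function.Periodic.qParam]
  rw [← Complex.exp_nat_mul, ← Complex.exp_add]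
  congr 1
  push_cast
  field_simp
  ring

lemma aff_hasSum (F : ℍ → ℂ) (hper : Function.Periodic (F ∘ ofComplex) 1)
    (hhol : MDiff F) (hbdd : IsBoundedAtImInfty F) (a d : ℕ) (ha : 0 < a) (hd : 0 < d) (b : ℤ)
    (τ : ℍ) :
    HasSum (fun m => affCoeff F a d b m • Function.Periodic.qParam ((a * d : ℕ) : ℝ) τ ^ m)
      (aff F a d b τ) := by
  have hpos : 0 < ((a * (τ : ℂ) + b) / d).im := im_affine_pos a d ha hd b τ τ.im_pos
  have h1 := hasSum_qExpansion (h := 1) one_pos hper hhol hbdd ⟨_, hpos⟩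
  have h2 : 0 < a ^ 2 := by positivity
  have hinj : Function.Injective (fun n : ℕ => a ^ 2 * n) :=
    fun x y hxy => Nat.eq_of_mul_eq_mul_left h2 hxy
  simp only [aff]
  rw [ofComplex_apply_of_im_pos hpos]
  rw [← hinj.hasSum_iff]
  · convert h1 using 1
    funext n
    simp only [Function.comp_apply]
    rw [affCoeff_mul F a d ha b n]
    have hq := qParam_affine a d ha hd b (τ : ℂ)
    rw [hq, mul_pow, ← pow_mul]
    simp only [smul_eq_mul]
    ring
  · intro x hx
    rw [affCoeff_of_not_dvd, zero_smul]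
    rintro ⟨n, rfl⟩
    exact hx ⟨n, rfl⟩

end QExpAffine

open QExpAffine in
/-- **Module M3c.** `q`-expansion of `τ ↦ F ((a τ + b) / d)` in terms of the `q`-expansion of a
`1`-periodic holomorphic function `F` bounded at `i∞`. -/
theorem qExpansion_comp_affine (F : ℍ → ℂ) (hper : Function.Periodic (F ∘ ofComplex) 1)
    (hhol : MDiff F) (hbdd : IsBoundedAtImInfty F) (a d : ℕ) (ha : 0 < a) (hd : 0 < d) (b : ℤ) :
    Function.Periodic ((fun τ : ℍ => F (ofComplex ((a * (τ : ℂ) + b) / d))) ∘ ofComplex)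
        ((a * d : ℕ) : ℝ) ∧
      MDiff (fun τ : ℍ => F (ofComplex ((a * (τ : ℂ) + b) / d))) ∧
      IsBoundedAtImInfty (fun τ : ℍ => F (ofComplex ((a * (τ : ℂ) + b) / d))) ∧
      ∀ m : ℕ, (qExpansion ((a * d : ℕ) : ℝ)
          (fun τ : ℍ => F (ofComplex ((a * (τ : ℂ) + b) / d)))).coeff m =
        if a ^ 2 ∣ m then Complex.exp (2 * Real.pi * Complex.I * b / d) ^ (m / a ^ 2) *
          (qExpansion 1 F).coeff (m / a ^ 2) else 0 := by
  have hP := aff_periodic F hper a d hd b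
  have hM := aff_mdiff F hhol a d ha hd b
  have hB := aff_bdd F hbdd a d ha hd b
  have hh : (0 : ℝ) < ((a * d : ℕ) : ℝ) := by exact_mod_cast Nat.mul_pos ha hd
  have hana := analyticAt_cuspFunction_zero hh hP hM hB
  refine ⟨hP, hM, hB, fun m => ?_⟩
  have key : affCoeff F a d b m = (qExpansion ((a * d : ℕ) : ℝ) (aff F a d b)).coeff m :=
    qExpansion_coeff_unique (c := affCoeff F a d b) (ContinuousMap.mk (aff F a d b) hM.continuous)
      hh hana (aff_hasSum F hper hhol hbdd a d ha hd b) m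
  exact key.symm

end Fermat.Agent.S22
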