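import Mathlib
import Fermat.Agent.S22.Defs

set_option autoImplicit false

namespace Fermat.Agent.S22

open UpperHalfPlane ModularForm CongruenceSubgroup SlashInvariantForm
open scoped MatrixGroups ModularForm Manifold

namespace TauInt

open EisensteinSeries

/-- `Σ σ₃(n) qⁿ` as an integral power series. -/
noncomputable def serA : PowerSeries ℤ := PowerSeries.mk fun n => (ArithmeticFunction.sigma 3 n : ℤ)

/-- `Σ σ₅(n) qⁿ` as an integral power series. -/
noncomputable def serB : PowerSeries ℤ := PowerSeries.mk fun n => (ArithmeticFunction.sigma 5 n : ℤ)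

/-- `(5 A + 7 B) / 12` as an integral power series. -/
noncomputable def serD : PowerSeries ℤ :=
  PowerSeries.mk fun n =>
    ((5 * ArithmeticFunction.sigma 3 n + 7 * ArithmeticFunction.sigma 5 n : ℕ) : ℤ) / 12

theorem twelve_dvd_pow (d : ℕ) : 12 ∣ 5 * d ^ 3 + 7 * d ^ 5 := by
  have key : ∀ r : ℕ, r < 12 → (5 * r ^ 3 + 7 * r ^ 5) % 12 = 0 := by decide
  apply Nat.dvd_of_mod_eq_zero
  have h := key (d % 12) (Nat.mod_lt _ (by norm_num))
  rw [Nat.add_mod, Nat.mul_mod, Nat.pow_mod, Nat.mul_mod 7, Nat.pow_mod d 5] 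
  rw [Nat.add_mod, Nat.mul_mod, Nat.mul_mod 7] at h
  simpa using h

theorem twelve_dvd_sigma (n : ℕ) :
    12 ∣ 5 * ArithmeticFunction.sigma 3 n + 7 * ArithmeticFunction.sigma 5 n := by
  rw [ArithmeticFunction.sigma_apply, ArithmeticFunction.sigma_apply, Finset.mul_sum,
    Finset.mul_sum, ← Finset.sum_add_distrib]
  exact Finset.dvd_sum fun d _ => twelve_dvd_pow d

theorem twelve_mul_serD : (12 : PowerSeries ℤ) * serD = 5 * serA + 7 * serB := by
  ext n
  have h12 : (12 : PowerSeries ℤ) = PowerSeries.C (12 : ℤ) := by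
    simp
  have h5 : (5 : PowerSeries ℤ) = PowerSeries.C (5 : ℤ) := by
    simp
  have h7 : (7 : PowerSeries ℤ) = PowerSeries.C (7 : ℤ) := by
    simp
  rw [h12, h5, h7, map_add, PowerSeries.coeff_C_mul, PowerSeries.coeff_C_mul,
    PowerSeries.coeff_C_mul]
  simp only [serD, serA, serB, PowerSeries.coeff_mk]
  obtain ⟨c, hc⟩ := twelve_dvd_sigma n
  have hc' : ((5 * ArithmeticFunction.sigma 3 n + 7 * ArithmeticFunction.sigma 5 n : ℕ) : ℤ) =
      12 * (c : ℤ) := by exact_mod_cast hc
  rw [hc', Int.mul_ediv_cancel_left _ (by norm_num : (12 : ℤ) ≠ 0)]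
  push_cast at hc'
  linarith

/-- The integral power series of `Δ`. -/
noncomputable def serC : PowerSeries ℤ :=
  100 * serA ^ 2 + 8000 * serA ^ 3 - 147 * serB ^ 2 + serD

theorem int_identity :
    (1 + 240 * serA) ^ 3 - (1 - 504 * serB) ^ 2 = 1728 * serC := by
  have h := twelve_mul_serD
  unfold serC
  linear_combination (-144 : PowerSeries ℤ) * h

theorem qExpansion_E4 :
    qExpansion 1 E₄ = PowerSeries.map (Int.castRingHom ℂ) (1 + 240 * serA) := by
  ext m
  rw [E_qExpansion_coeff _ ⟨2, rfl⟩, PowerSeries.coeff_map]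
  have h240 : (240 : PowerSeries ℤ) = PowerSeries.C (240 : ℤ) := by simp
  rw [map_add, h240, PowerSeries.coeff_C_mul, PowerSeries.coeff_one]
  simp only [serA, PowerSeries.coeff_mk]
  have hb : bernoulli 4 = -1 / 30 := by decide +kernel
  split_ifs with hm
  · subst hm
    simp
  · rw [hb]
    simp only [eq_intCast]
    push_cast
    ring

theorem qExpansion_E6 :
    qExpansion 1 E₆ = PowerSeries.map (Int.castRingHom ℂ) (1 - 504 * serB) := by
  ext m
  rw [E_qExpansion_coeff _ ⟨3, rfl⟩, PowerSeries.coeff_map]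
  have h504 : (504 : PowerSeries ℤ) = PowerSeries.C (504 : ℤ) := by simp
  rw [map_sub, h504, PowerSeries.coeff_C_mul, PowerSeries.coeff_one]
  simp only [serB, PowerSeries.coeff_mk]
  have hb : bernoulli 6 = 1 / 42 := by decide +kernel
  split_ifs with hm
  · subst hm
    simp
  · rw [hb]
    simp only [eq_intCast]
    push_cast
    ring

/-- `E₄³ - E₆²` as a level one form of weight 12. -/
noncomputable def F12 : ModularForm 𝒮ℒ 12 :=
  ModularForm.mcast (by decide) (E₄.pow 3) - ModularForm.mcast (by decide) (E₆.pow 2)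

theorem F12_apply (z : ℍ) : F12 z = E₄ z ^ 3 - E₆ z ^ 2 := by
  simp only [F12, coe_mcast, coe_pow, sub_apply, Pi.pow_apply]

theorem qExpansion_F12 :
    qExpansion 1 F12 = qExpansion 1 E₄ ^ 3 - qExpansion 1 E₆ ^ 2 := by
  simp only [F12, FunLike.coe_sub, coe_mcast,
    ModularForm.qExpansion_sub one_pos one_mem_strictPeriods_SL,
    ModularForm.qExpansion_pow one_pos one_mem_strictPeriods_SL]

theorem F12_eq : (F12 : ℍ → ℂ) = (1728 : ℂ) • (CuspForm.discriminant : ℍ → ℂ) := by
  funext z
  rw [F12_apply, Pi.smul_apply, CuspForm.coe_discriminant, discriminant_eq_E₄_cube_sub_E₆_sq z,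
    smul_eq_mul]
  ring

theorem qExpansion_discriminant_eq :
    qExpansion 1 ModularForm.discriminant = PowerSeries.map (Int.castRingHom ℂ) serC := by
  have h1 : qExpansion 1 (F12 : ℍ → ℂ) = (1728 : ℂ) • qExpansion 1 ModularForm.discriminant := by
    rw [F12_eq]
    exact ModularForm.qExpansion_smul one_pos one_mem_strictPeriods_SL 1728 CuspForm.discriminant
  have h2 : qExpansion 1 (F12 : ℍ → ℂ) =
      PowerSeries.map (Int.castRingHom ℂ) ((1 + 240 * serA) ^ 3 - (1 - 504 * serB) ^ 2) := by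
    have h4 : PowerSeries.map (Int.castRingHom ℂ) ((1 + 240 * serA) ^ 3 - (1 - 504 * serB) ^ 2) =
        PowerSeries.map (Int.castRingHom ℂ) (1 + 240 * serA) ^ 3 -
          PowerSeries.map (Int.castRingHom ℂ) (1 - 504 * serB) ^ 2 := by
      rw [map_sub, map_pow, map_pow]
    rw [qExpansion_F12, qExpansion_E4, qExpansion_E6, h4]
  rw [int_identity] at h2
  ext n
  have h3 := congrArg (PowerSeries.coeff n) (h1.symm.trans h2)
  have h1728 : (1728 : PowerSeries ℤ) = PowerSeries.C (1728 : ℤ) := by simp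
  rw [PowerSeries.coeff_smul, PowerSeries.coeff_map, h1728, PowerSeries.coeff_C_mul] at h3
  rw [PowerSeries.coeff_map]
  have : (1728 : ℂ) ≠ 0 := by norm_num
  exact mul_left_cancel₀ this (by simpa using h3)

end TauInt

/-- The `q`-expansion coefficients of the modular discriminant are integers. -/
theorem discriminant_qExpansion_coeff_int (n : ℕ) :
    ∃ m : ℤ, (qExpansion 1 ModularForm.discriminant).coeff n = (m : ℂ) := by
  refine ⟨PowerSeries.coeff n TauInt.serC, ?_⟩
  rw [TauInt.qExpansion_discriminant_eq, PowerSeries.coeff_map]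
  rfl

end Fermat.Agent.S22
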