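import Mathlib
import Fermat.Agent.S22.Defs
import Fermat.Agent.S22.ConjDef
import Fermat.Agent.S22.QExpAffine
import Fermat.Agent.S22.TauInt
import Fermat.Prelude.Thm_UpperHalfPlane_qExpansion_coeff_nat_mul
import Fermat.Prelude.Thm_CongruenceSubgroup_one_mem_strictPeriods_Gamma0

set_option autoImplicit false

namespace Fermat.Agent.S22

open UpperHalfPlane ModularForm CongruenceSubgroup SlashInvariantForm
open scoped MatrixGroups ModularForm Manifold

namespace ConjQExp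

open Complex

/-- Ramanujan's `τ(n)` as an integer. -/
noncomputable def tau (n : ℕ) : ℤ := PowerSeries.coeff n TauInt.serC

theorem coeff_discriminant (n : ℕ) :
    (qExpansion 1 ModularForm.discriminant).coeff n = (tau n : ℂ) := by
  rw [TauInt.qExpansion_discriminant_eq, PowerSeries.coeff_map]
  rfl

theorem tau_zero : tau 0 = 0 := by
  have h := CuspFormClass.qExpansion_coeff_zero CuspForm.discriminant one_pos
    one_mem_strictPeriods_SL
  rw [CuspForm.coe_discriminant, coeff_discriminant] at h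
  exact_mod_cast h

theorem tau_one : tau 1 = 1 := by
  have h := ModularForm.discriminant_qExpansion_coeff_one
  rw [coeff_discriminant] at h
  exact_mod_cast h

theorem disc_periodic : Function.Periodic (ModularForm.discriminant ∘ ofComplex) 1 := by
  have := SlashInvariantFormClass.periodic_comp_ofComplex CuspForm.discriminant
    one_mem_strictPeriods_SL
  rwa [CuspForm.coe_discriminant] at this

theorem disc_mdiff : MDiff ModularForm.discriminant := by
  have := CuspFormClass.holo CuspForm.discriminant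
  rwa [CuspForm.coe_discriminant] at this

theorem disc_bdd : IsBoundedAtImInfty ModularForm.discriminant :=
  ModularForm.discriminant_isZeroAtImInfty.isBoundedAtImInfty

/-- The function `τ ↦ Δ((aτ+b)/d)`. -/
noncomputable def G (a d : ℕ) (b : ℤ) : ℍ → ℂ :=
  fun τ : ℍ => ModularForm.discriminant (ofComplex ((a * (τ : ℂ) + b) / d))

theorem G_props {N a d : ℕ} (ha : 0 < a) (hd : 0 < d) (had : a * d = N) (b : ℤ) :
    Function.Periodic (G a d b ∘ ofComplex) (N : ℝ) ∧ MDiff (G a d b) ∧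
      IsBoundedAtImInfty (G a d b) ∧
      ∀ m : ℕ, (qExpansion (N : ℝ) (G a d b)).coeff m =
        if a ^ 2 ∣ m then Complex.exp (2 * Real.pi * Complex.I * b / d) ^ (m / a ^ 2) *
          (tau (m / a ^ 2) : ℂ) else 0 := by
  have h := qExpansion_comp_affine ModularForm.discriminant disc_periodic disc_mdiff disc_bdd
    a d ha hd b
  rw [had] at h
  obtain ⟨h1, h2, h3, h4⟩ := h
  refine ⟨h1, h2, h3, fun m => ?_⟩
  have := h4 m
  rw [coeff_discriminant] at this
  exact this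

theorem G_analytic {N a d : ℕ} [NeZero N] (ha : 0 < a) (hd : 0 < d) (had : a * d = N) (b : ℤ) :
    AnalyticAt ℂ (cuspFunction (N : ℝ) (G a d b)) 0 := by
  obtain ⟨h1, h2, h3, -⟩ := G_props ha hd had b
  exact UpperHalfPlane.analyticAt_cuspFunction_zero
    (by exact_mod_cast Nat.pos_of_ne_zero (NeZero.ne N)) h1 h2 h3

/-- `x = N^11 • Δ(N τ)`. -/
theorem xForm_eq (N : ℕ) [NeZero N] : (xForm N : ℍ → ℂ) = ((N : ℂ) ^ 11) • G N 1 0 := by
  funext τ
  have hN : N ≠ 0 := NeZero.ne N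
  have e1 : ((N : ℂ)) ^ ((12 : ℤ) - 1) = (N : ℂ) ^ 11 := by
    rw [show ((12 : ℤ) - 1) = ((11 : ℕ) : ℤ) by norm_num, zpow_natCast]
  have e2 : ModularForm.heckeDiagMatrix N • τ =
      ofComplex (((N : ℂ) * (τ : ℂ) + ((0 : ℤ) : ℂ)) / ((1 : ℕ) : ℂ)) := by
    have h3 : ((N : ℂ) * (τ : ℂ) + ((0 : ℤ) : ℂ)) / ((1 : ℕ) : ℂ) =
        ((ModularForm.heckeDiagMatrix N • τ : ℍ) : ℂ) := by
      rw [ModularForm.coe_heckeDiagMatrix_smul hN]
      simp
    rw [h3, ofComplex_apply]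
  rw [xForm_coe, ModularForm.slash_heckeDiagMatrix_apply 12 hN, Pi.smul_apply, smul_eq_mul, e1, e2]
  rfl

theorem xForm_slash_eq {N : ℕ} [NeZero N] {γ : SL(2, ℤ)} {a d : ℕ} {b : ℤ}
    (h : ∀ τ : ℍ, ((xForm N : ℍ → ℂ) ∣[(12 : ℤ)] γ) τ = (N : ℂ) ^ 11 * ((d : ℂ) ^ 12)⁻¹ *
      ModularForm.discriminant (ofComplex ((a * (τ : ℂ) + b) / d))) :
    ((xForm N : ℍ → ℂ) ∣[(12 : ℤ)] γ) = ((N : ℂ) ^ 11 * ((d : ℂ) ^ 12)⁻¹) • G a d b := by
  funext τ
  rw [h τ, Pi.smul_apply, smul_eq_mul]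
  rfl

theorem coeff_xForm (N : ℕ) [NeZero N] (m : ℕ) :
    (qExpansion (N : ℝ) (xForm N)).coeff m =
      (N : ℂ) ^ 11 * (if N ^ 2 ∣ m then (tau (m / N ^ 2) : ℂ) else 0) := by
  have hN : 0 < N := Nat.pos_of_ne_zero (NeZero.ne N)
  rw [xForm_eq, qExpansion_smul (G_analytic hN one_pos (Nat.mul_one N) 0), PowerSeries.coeff_smul,
    (G_props hN one_pos (Nat.mul_one N) 0).2.2.2 m, smul_eq_mul]
  congr 1
  split_ifs
  · simp
  · rfl

theorem coeff_xForm_slash {N : ℕ} [NeZero N] {γ : SL(2, ℤ)} {a d : ℕ} {b : ℤ}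
    (ha : 0 < a) (hd : 0 < d) (had : a * d = N)
    (h : ∀ τ : ℍ, ((xForm N : ℍ → ℂ) ∣[(12 : ℤ)] γ) τ = (N : ℂ) ^ 11 * ((d : ℂ) ^ 12)⁻¹ *
      ModularForm.discriminant (ofComplex ((a * (τ : ℂ) + b) / d))) (m : ℕ) :
    (qExpansion (N : ℝ) ((xForm N : ℍ → ℂ) ∣[(12 : ℤ)] γ)).coeff m =
      (N : ℂ) ^ 11 * ((d : ℂ) ^ 12)⁻¹ *
        (if a ^ 2 ∣ m then Complex.exp (2 * Real.pi * Complex.I * b / d) ^ (m / a ^ 2) *
          (tau (m / a ^ 2) : ℂ) else 0) := by
  rw [xForm_slash_eq h, qExpansion_smul (G_analytic ha hd had b), PowerSeries.coeff_smul,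
    (G_props ha hd had b).2.2.2 m, smul_eq_mul]

/-- `ζ_N`. -/
noncomputable def zeta (N : ℕ) : ℂ := Complex.exp (2 * Real.pi * Complex.I / N)

theorem zeta_mem (N : ℕ) : zeta N ∈ zetaRing N := Algebra.subset_adjoin rfl

theorem zeta_pow (N : ℕ) [NeZero N] : zeta N ^ N = 1 := by
  have hN : (N : ℂ) ≠ 0 := Nat.cast_ne_zero.mpr (NeZero.ne N)
  rw [zeta, ← Complex.exp_nat_mul, mul_div_cancel₀ _ hN]
  exact Complex.exp_two_pi_mul_I

theorem exp_int_mem (N : ℕ) [NeZero N] (j : ℤ) :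
    Complex.exp (2 * Real.pi * Complex.I * j / N) ∈ zetaRing N := by
  have hN : (N : ℂ) ≠ 0 := Nat.cast_ne_zero.mpr (NeZero.ne N)
  have hN' : (N : ℤ) ≠ 0 := by exact_mod_cast NeZero.ne N
  obtain ⟨r, hr⟩ : ∃ r : ℕ, (r : ℤ) = j % N :=
    ⟨(j % N).toNat, Int.toNat_of_nonneg (Int.emod_nonneg _ hN')⟩
  have hj : j = N * (j / N) + r := by
    rw [hr]; exact (Int.mul_ediv_add_emod j N).symm
  have hexp : Complex.exp (2 * Real.pi * Complex.I * j / N) = zeta N ^ r := by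
    rw [zeta, ← Complex.exp_nat_mul]
    have e : (2 * Real.pi * Complex.I * (j : ℂ) / N) =
        (r : ℂ) * (2 * Real.pi * Complex.I / N) + ((j / N : ℤ) : ℂ) * (2 * Real.pi * Complex.I) := by
      have hj' : (j : ℂ) = N * ((j / N : ℤ) : ℂ) + r := by exact_mod_cast hj
      rw [hj']
      field_simp
      ring
    rw [e, Complex.exp_add, Complex.exp_int_mul_two_pi_mul_I, mul_one]
  rw [hexp]
  exact Subalgebra.pow_mem _ (zeta_mem N) r

theorem exp_div_mem {N a d : ℕ} [NeZero N] (hd : 0 < d) (had : a * d = N) (b : ℤ) :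
    Complex.exp (2 * Real.pi * Complex.I * b / d) ∈ zetaRing N := by
  have hd' : (d : ℂ) ≠ 0 := Nat.cast_ne_zero.mpr hd.ne'
  have hN : (N : ℂ) ≠ 0 := Nat.cast_ne_zero.mpr (NeZero.ne N)
  have e : (2 * Real.pi * Complex.I * (b : ℂ) / d) =
      2 * Real.pi * Complex.I * ((a * b : ℤ) : ℂ) / N := by
    have : (N : ℂ) = a * d := by exact_mod_cast had.symm
    rw [this]
    have ha' : (a : ℂ) ≠ 0 := by
      intro h0
      apply hN
      rw [this, h0, zero_mul]
    push_cast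
    field_simp
  rw [e]
  exact exp_int_mem N (a * b)

end ConjQExp

open ConjQExp

theorem zetaRing_finite (N : ℕ) [NeZero N] : Module.Finite ℤ (zetaRing N) := by
  have hint : IsIntegral ℤ (zeta N) :=
    ⟨Polynomial.X ^ N - 1, Polynomial.monic_X_pow_sub_C 1 (NeZero.ne N), by simp [zeta_pow]⟩
  exact Module.Finite.iff_fg.mpr hint.fg_adjoin_singleton

theorem xForm_qExpansion_one_int (N : ℕ) [NeZero N] (n : ℕ) :
    ∃ m : ℤ, (qExpansion 1 (xForm N)).coeff n = (m : ℂ) := by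
  have hN : 0 < N := Nat.pos_of_ne_zero (NeZero.ne N)
  have hper : Function.Periodic ((xForm N : ℍ → ℂ) ∘ ofComplex) 1 :=
    SlashInvariantFormClass.periodic_comp_ofComplex (xForm N)
      (CongruenceSubgroup.one_mem_strictPeriods_Gamma0 N)
  have hhol : MDiff (xForm N : ℍ → ℂ) := ModularFormClass.holo (xForm N)
  have hbdd : IsBoundedAtImInfty (xForm N : ℍ → ℂ) := by
    have : Fact (IsCusp OnePoint.infty
        (Subgroup.map (Matrix.SpecialLinearGroup.mapGL ℝ) (Gamma0 N))) :=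
      ⟨Subgroup.isCusp_of_mem_strictPeriods one_pos
        (CongruenceSubgroup.one_mem_strictPeriods_Gamma0 N)⟩
    exact ModularFormClass.bdd_at_infty (xForm N)
  have h := UpperHalfPlane.qExpansion_coeff_nat_mul one_pos hper hhol hbdd hN (N * n)
  rw [if_pos (Dvd.intro n rfl), Nat.mul_div_cancel_left n hN, mul_one] at h
  rw [← h, coeff_xForm]
  split_ifs
  · exact ⟨(N : ℤ) ^ 11 * tau (N * n / N ^ 2), by push_cast; ring⟩
  · exact ⟨0, by simp⟩

theorem xForm_qExpansion_mem (N : ℕ) [NeZero N] :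
    ∃ X' : PowerSeries (zetaRing N),
      qExpansion (N : ℝ) (xForm N) = X'.map (algebraMap (zetaRing N) ℂ) := by
  refine ⟨PowerSeries.mk fun m => algebraMap ℤ (zetaRing N)
    ((N : ℤ) ^ 11 * (if N ^ 2 ∣ m then tau (m / N ^ 2) else 0)), ?_⟩
  ext m
  rw [coeff_xForm, PowerSeries.coeff_map, PowerSeries.coeff_mk]
  split_ifs <;> simp

theorem analyticAt_cuspFunction_xForm_slash (N : ℕ) [NeZero N] (γ : SL(2, ℤ)) :
    AnalyticAt ℂ (cuspFunction (N : ℝ) ((xForm N : ℍ → ℂ) ∣[(12 : ℤ)] γ)) 0 := by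
  obtain ⟨a, d, b, had, -, h⟩ := xForm_slash N γ
  have hN : N ≠ 0 := NeZero.ne N
  have ha : 0 < a := Nat.pos_of_ne_zero fun h0 => hN (by rw [← had, h0, zero_mul])
  have hd : 0 < d := Nat.pos_of_ne_zero fun h0 => hN (by rw [← had, h0, mul_zero])
  have hG := G_analytic ha hd had b
  rw [xForm_slash_eq h, UpperHalfPlane.cuspFunction_smul hG.continuousAt]
  exact hG.const_smul

theorem qExpansion_xForm_sub_slash (N : ℕ) [NeZero N] (γ : SL(2, ℤ)) (hγ : γ ∉ Gamma0 N) :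
    ∃ (C : ℂ) (e : ℕ) (U : PowerSeries (zetaRing N)), C ≠ 0 ∧ PowerSeries.constantCoeff U = 1 ∧
      qExpansion (N : ℝ) ((xForm N : ℍ → ℂ) - (xForm N : ℍ → ℂ) ∣[(12 : ℤ)] γ) =
        C • (PowerSeries.X ^ e * U.map (algebraMap (zetaRing N) ℂ)) := by
  obtain ⟨a, d, b, had, hd1, h⟩ := xForm_slash N γ
  have hd1 : 1 < d := hd1 hγ
  have hN : N ≠ 0 := NeZero.ne N
  have hNpos : 0 < N := Nat.pos_of_ne_zero hN
  have ha : 0 < a := Nat.pos_of_ne_zero fun h0 => hN (by rw [← had, h0, zero_mul])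
  have hd : 0 < d := by omega
  have haN : a < N := by
    rw [← had]; nlinarith
  have ha2N2 : a ^ 2 < N ^ 2 := Nat.pow_lt_pow_left haN (by norm_num)
  have ha2 : 0 < a ^ 2 := pow_pos ha 2
  set ζb : ℂ := Complex.exp (2 * Real.pi * Complex.I * b / d) with hζb
  have hζb0 : ζb ≠ 0 := Complex.exp_ne_zero _
  have hζmem : ζb ∈ zetaRing N := exp_div_mem hd had b
  have hζinv : ζb⁻¹ ∈ zetaRing N := by
    have : ζb⁻¹ = Complex.exp (2 * Real.pi * Complex.I * ((-b : ℤ) : ℂ) / d) := by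
      rw [hζb, ← Complex.exp_neg]
      congr 1
      push_cast
      ring
    rw [this]
    exact exp_div_mem hd had (-b)
  have hdC : (d : ℂ) ≠ 0 := Nat.cast_ne_zero.mpr hd.ne'
  have hNC : (N : ℂ) ≠ 0 := Nat.cast_ne_zero.mpr hN
  -- the coefficients of the unit
  let u : ℕ → ℂ := fun i =>
    (if a ^ 2 ∣ i then ζb ^ (i / a ^ 2) * (tau (1 + i / a ^ 2) : ℂ) else 0) -
      (d : ℂ) ^ 12 * ζb⁻¹ * (if N ^ 2 ∣ a ^ 2 + i then (tau ((a ^ 2 + i) / N ^ 2) : ℂ) else 0)
  have hu : ∀ i, u i ∈ zetaRing N := by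
    intro i
    refine Subalgebra.sub_mem _ ?_ ?_
    · split_ifs
      · exact Subalgebra.mul_mem _ (Subalgebra.pow_mem _ hζmem _) (Subalgebra.intCast_mem _ _)
      · exact Subalgebra.zero_mem _
    · refine Subalgebra.mul_mem _ (Subalgebra.mul_mem _ ?_ hζinv) ?_
      · exact Subalgebra.pow_mem _ (Subalgebra.natCast_mem _ d) 12
      · split_ifs
        · exact Subalgebra.intCast_mem _ _
        · exact Subalgebra.zero_mem _
  refine ⟨-((N : ℂ) ^ 11 * ((d : ℂ) ^ 12)⁻¹ * ζb), a ^ 2,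
    PowerSeries.mk fun i => (⟨u i, hu i⟩ : zetaRing N), ?_, ?_, ?_⟩
  · exact neg_ne_zero.mpr (mul_ne_zero (mul_ne_zero (pow_ne_zero _ hNC)
      (inv_ne_zero (pow_ne_zero _ hdC))) hζb0)
  · rw [← PowerSeries.coeff_zero_eq_constantCoeff_apply, PowerSeries.coeff_mk]
    apply Subtype.ext
    show u 0 = 1
    have h1 : ¬ N ^ 2 ∣ a ^ 2 + 0 := by
      rw [add_zero]
      exact Nat.not_dvd_of_pos_of_lt ha2 ha2N2
    rw [add_zero] at h1
    simp [u, h1, tau_one]
  · have hxan : AnalyticAt ℂ (cuspFunction (N : ℝ) (xForm N : ℍ → ℂ)) 0 := by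
      rw [xForm_eq, UpperHalfPlane.cuspFunction_smul
        (G_analytic hNpos one_pos (Nat.mul_one N) 0).continuousAt]
      exact (G_analytic hNpos one_pos (Nat.mul_one N) 0).const_smul
    ext m
    rw [qExpansion_sub hxan (analyticAt_cuspFunction_xForm_slash N γ), map_sub, coeff_xForm,
      coeff_xForm_slash ha hd had h, PowerSeries.coeff_smul, PowerSeries.coeff_X_pow_mul',
      smul_eq_mul]
    by_cases hm : a ^ 2 ≤ m
    · rw [if_pos hm, PowerSeries.coeff_map, PowerSeries.coeff_mk]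
      obtain ⟨i, rfl⟩ := Nat.exists_eq_add_of_le hm
      rw [Nat.add_sub_cancel_left]
      show _ = _ * u i
      have hdiv : a ^ 2 ∣ a ^ 2 + i ↔ a ^ 2 ∣ i := Nat.dvd_add_right (dvd_refl _)
      have hquot : (a ^ 2 + i) / a ^ 2 = 1 + i / a ^ 2 := by
        rw [Nat.add_div_left _ ha2, add_comm]
      simp only [u]
      by_cases h1 : a ^ 2 ∣ i <;> by_cases h2 : N ^ 2 ∣ a ^ 2 + i
      · rw [if_pos (hdiv.mpr h1), if_pos h2, if_pos h1, hquot, pow_add, pow_one]
        field_simp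
        ring
      · rw [if_pos (hdiv.mpr h1), if_neg h2, if_pos h1, hquot, pow_add, pow_one]
        field_simp
        ring
      · rw [if_neg (fun hh => h1 (hdiv.mp hh)), if_pos h2, if_neg h1]
        field_simp
        ring
      · rw [if_neg (fun hh => h1 (hdiv.mp hh)), if_neg h2, if_neg h1]
        ring
    · rw [if_neg hm, mul_zero]
      have hm' : m < a ^ 2 := by omega
      have h1 : (if N ^ 2 ∣ m then (tau (m / N ^ 2) : ℂ) else 0) = 0 := by
        split_ifs with hdv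
        · have hm0 : m = 0 := Nat.eq_zero_of_dvd_of_lt hdv (by omega)
          rw [hm0, Nat.zero_div, tau_zero, Int.cast_zero]
        · rfl
      have h2 : (if a ^ 2 ∣ m then ζb ^ (m / a ^ 2) * (tau (m / a ^ 2) : ℂ) else 0) = 0 := by
        split_ifs with hdv
        · have hm0 : m = 0 := Nat.eq_zero_of_dvd_of_lt hdv hm'
          rw [hm0, Nat.zero_div, tau_zero, Int.cast_zero, mul_zero]
        · rfl
      rw [h1, h2, mul_zero, mul_zero, sub_zero]

end Fermat.Agent.S22
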