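import Mathlib

/-!
# M5b: the algebraic Lagrange interpolation identity and the characteristic polynomial identity

Pure commutative algebra, used by the Lagrange-resolvent route to S22 / S23.
-/

set_option autoImplicit false

namespace Fermat.Agent.S22

namespace LagAlg

open Polynomial Finset

section general

variable {R : Type*} [CommRing R]

/-- The generic polynomial `∑ (-1)^m e_m X^(μ-m)`. -/
noncomputable def gpoly (e : ℕ → R) (μ : ℕ) : R[X] :=
  ∑ m ∈ range (μ + 1), (-1 : R[X]) ^ m * (C (e m) * X ^ (μ - m))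

/-- Its difference quotient at `z`. -/
noncomputable def gquot (e : ℕ → R) (μ : ℕ) (z : R) : R[X] :=
  ∑ m ∈ range μ, ∑ b ∈ range (μ - m),
    (-1 : R[X]) ^ m * C (e m) * (X ^ b * C z ^ (μ - m - 1 - b))

theorem eval_gpoly (e : ℕ → R) (μ : ℕ) (z : R) :
    (gpoly e μ).eval z = ∑ m ∈ range (μ + 1), (-1 : R) ^ m * e m * z ^ (μ - m) := by
  simp [gpoly, eval_finsetSum, mul_assoc]

theorem eval_gquot (e : ℕ → R) (μ : ℕ) (z y : R) :
    (gquot e μ z).eval y = ∑ m ∈ range μ, ∑ b ∈ range (μ - m),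
      (-1 : R) ^ m * e m * (y ^ b * z ^ (μ - m - 1 - b)) := by
  simp [gquot, eval_finsetSum]

theorem gquot_mul (e : ℕ → R) (μ : ℕ) (z : R) :
    gquot e μ z * (X - C z) = gpoly e μ - C ((gpoly e μ).eval z) := by
  have h2 : C ((gpoly e μ).eval z) =
      ∑ m ∈ range (μ + 1), (-1 : R[X]) ^ m * (C (e m) * C z ^ (μ - m)) := by
    rw [eval_gpoly]
    simp [map_sum, mul_assoc]
  rw [h2, gpoly, ← Finset.sum_sub_distrib, Finset.sum_range_succ]
  have hlast : (-1 : R[X]) ^ μ * (C (e μ) * X ^ (μ - μ)) -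
      (-1 : R[X]) ^ μ * (C (e μ) * C z ^ (μ - μ)) = 0 := by
    simp
  rw [hlast, add_zero, gquot, Finset.sum_mul]
  refine Finset.sum_congr rfl fun m _ => ?_
  have hg := (Commute.all (X : R[X]) (C z)).geom_sum₂_mul (μ - m)
  rw [← mul_sub, ← mul_sub, ← hg, ← mul_assoc, ← Finset.mul_sum, mul_assoc]

end general

variable {R ι : Type*} [CommRing R] [Fintype ι] [DecidableEq ι]

/-- The elementary symmetric sums of the family `x`. -/
def es (x : ι → R) (m : ℕ) : R := ∑ S ∈ (univ : Finset ι).powersetCard m, ∏ i ∈ S, x i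

omit [DecidableEq ι] in
/-- Vieta, in the shape we need. -/
theorem prod_X_sub_C_eq (x : ι → R) :
    ∏ i, (X - C (x i)) = gpoly (es x) (Fintype.card ι) := by
  have h := Multiset.prod_X_sub_X_eq_sum_esymm ((univ : Finset ι).val.map x)
  simp only [Multiset.map_map, Multiset.card_map, Finset.card_val, Finset.esymm_map_val,
    Finset.card_univ] at h
  rw [gpoly]
  unfold es
  rw [← h]
  rfl

omit [DecidableEq ι] in
theorem eval_gpoly_eq_zero (i₀ : ι) (x : ι → R) :
    (gpoly (es x) (Fintype.card ι)).eval (x i₀) = 0 := by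
  rw [← prod_X_sub_C_eq, eval_prod]
  exact Finset.prod_eq_zero (mem_univ i₀) (by simp)

theorem gquot_eq (i₀ : ι) (x : ι → R) :
    gquot (es x) (Fintype.card ι) (x i₀) = ∏ i ∈ univ.erase i₀, (X - C (x i)) := by
  have h1 := gquot_mul (es x) (Fintype.card ι) (x i₀)
  rw [eval_gpoly_eq_zero, map_zero, sub_zero, ← prod_X_sub_C_eq,
    ← Finset.prod_erase_mul _ _ (mem_univ i₀)] at h1
  exact (monic_X_sub_C (x i₀)).isRegular.right h1

theorem eval_gquot_eq (i₀ i : ι) (x : ι → R) :
    (gquot (es x) (Fintype.card ι) (x i₀)).eval (x i) =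
      if i = i₀ then ∏ j ∈ univ.erase i₀, (x i₀ - x j) else 0 := by
  rw [gquot_eq, eval_prod]
  split_ifs with h
  · subst h
    simp
  · exact Finset.prod_eq_zero (Finset.mem_erase.mpr ⟨h, mem_univ i⟩) (by simp)

end LagAlg

open Finset in
/-- **Lagrange interpolation identity**, in elementary-symmetric form. -/
theorem lagrange_alg {R ι : Type*} [CommRing R] [Fintype ι] [DecidableEq ι] (i₀ : ι)
    (f x : ι → R) :
    f i₀ * ∏ i ∈ Finset.univ.erase i₀, (x i₀ - x i) =
      ∑ m ∈ Finset.range (Fintype.card ι), ∑ b ∈ Finset.range (Fintype.card ι - m),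
        (-1) ^ m * (∑ S ∈ (Finset.univ : Finset ι).powersetCard m, ∏ i ∈ S, x i) *
          (∑ i, f i * x i ^ b) * x i₀ ^ (Fintype.card ι - 1 - m - b) := by
  have key : ∀ i, f i * (LagAlg.gquot (LagAlg.es x) (Fintype.card ι) (x i₀)).eval (x i) =
      if i = i₀ then f i₀ * ∏ j ∈ univ.erase i₀, (x i₀ - x j) else 0 := by
    intro i
    rw [LagAlg.eval_gquot_eq]
    split_ifs with h
    · rw [h]
    · rw [mul_zero]
  have hsum : ∑ i, f i * (LagAlg.gquot (LagAlg.es x) (Fintype.card ι) (x i₀)).eval (x i) =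
      f i₀ * ∏ j ∈ univ.erase i₀, (x i₀ - x j) := by
    rw [Finset.sum_congr rfl fun i _ => key i]
    simp
  have hR : (∑ m ∈ Finset.range (Fintype.card ι), ∑ b ∈ Finset.range (Fintype.card ι - m),
        (-1) ^ m * (∑ S ∈ (Finset.univ : Finset ι).powersetCard m, ∏ i ∈ S, x i) *
          (∑ i, f i * x i ^ b) * x i₀ ^ (Fintype.card ι - 1 - m - b)) =
      ∑ m ∈ Finset.range (Fintype.card ι), ∑ b ∈ Finset.range (Fintype.card ι - m),
        ∑ i, f i * ((-1) ^ m * LagAlg.es x m * (x i ^ b * x i₀ ^ (Fintype.card ι - m - 1 - b))) := by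
    refine Finset.sum_congr rfl fun m _ => ?_
    refine Finset.sum_congr rfl fun b _ => ?_
    have hexp : Fintype.card ι - m - 1 - b = Fintype.card ι - 1 - m - b := by omega
    rw [hexp]
    change (-1) ^ m * LagAlg.es x m * (∑ i, f i * x i ^ b) * x i₀ ^ (Fintype.card ι - 1 - m - b) = _
    rw [Finset.mul_sum, Finset.sum_mul]
    refine Finset.sum_congr rfl fun i _ => ?_
    ring
  rw [hR, ← hsum]
  simp only [LagAlg.eval_gquot, Finset.mul_sum]
  rw [Finset.sum_comm]
  refine Finset.sum_congr rfl fun m _ => ?_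
  rw [Finset.sum_comm]

open Finset in
/-- The family `x` consists of roots of its own characteristic polynomial. -/
theorem charpoly_alg {R ι : Type*} [CommRing R] [Fintype ι] [DecidableEq ι] (i₀ : ι)
    (x : ι → R) :
    ∑ m ∈ Finset.range (Fintype.card ι + 1),
      (-1) ^ m * (∑ S ∈ (Finset.univ : Finset ι).powersetCard m, ∏ i ∈ S, x i) *
        x i₀ ^ (Fintype.card ι - m) = 0 := by
  have h := LagAlg.eval_gpoly_eq_zero i₀ x
  rw [LagAlg.eval_gpoly] at h
  exact h

end Fermat.Agent.S22
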