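import Mathlib
import Fermat.Agent.S22.Defs
import Fermat.Agent.S22.TauInt

/-!
Level one: the `ℤ`-span of the `q`-coefficient functionals on `M_K(SL(2,ℤ))` is finitely
generated, and `M_K(SL(2,ℤ))` is stable under conjugating `q`-coefficients by any field
automorphism of `ℂ`.
-/

set_option autoImplicit false

namespace Fermat.Agent.S22

open UpperHalfPlane ModularForm CongruenceSubgroup SlashInvariantForm
open scoped MatrixGroups ModularForm Manifold

namespace LevelOne

/-- The `n`-th `q`-coefficient as a linear functional on level one modular forms. -/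
noncomputable def coeffL (K : ℤ) (n : ℕ) : ModularForm 𝒮ℒ K →ₗ[ℂ] ℂ where
  toFun g := (qExpansion 1 g).coeff n
  map_add' f g := by
    rw [FunLike.coe_add, ModularForm.qExpansion_add one_pos one_mem_strictPeriods_SL, map_add]
  map_smul' c f := by
    rw [FunLike.coe_smul, ModularForm.qExpansion_smul one_pos one_mem_strictPeriods_SL,
      PowerSeries.coeff_smul, RingHom.id_apply]

theorem coeffL_apply (K : ℤ) (n : ℕ) (g : ModularForm 𝒮ℒ K) :
    coeffL K n g = (qExpansion 1 g).coeff n := rfl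

/-- The property we prove by induction on the weight. -/
def Good (K : ℤ) : Prop :=
  (Submodule.span ℤ (Set.range (coeffL K))).FG ∧
    ∀ (σ : ℂ ≃+* ℂ) (g : ModularForm 𝒮ℒ K), ∃ g' : ModularForm 𝒮ℒ K,
      ∀ n : ℕ, (qExpansion 1 g').coeff n = σ ((qExpansion 1 g).coeff n)

theorem good_of_forall_eq_zero (K : ℤ) (h : ∀ g : ModularForm 𝒮ℒ K, g = 0) : Good K := by
  refine ⟨?_, ?_⟩
  · have : Set.range (coeffL K) ⊆ {0} := by
      rintro _ ⟨n, rfl⟩
      refine LinearMap.ext fun g => ?_
      rw [h g]; simp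
    have h2 : Submodule.span ℤ (Set.range (coeffL K)) = ⊥ := by
      rw [eq_bot_iff]
      exact (Submodule.span_mono this).trans (by simp)
    rw [h2]
    exact Submodule.fg_bot
  · intro σ g
    refine ⟨0, fun n => ?_⟩
    rw [h g]
    simp [qExpansion_zero]

theorem good_zero : Good 0 := by
  have key : ∀ g : ModularForm 𝒮ℒ 0, ∀ n : ℕ,
      (qExpansion 1 g).coeff n = if n = 0 then (qExpansion 1 g).coeff 0 else 0 := by
    intro g n
    obtain ⟨c, hc⟩ := ModularFormClass.levelOne_weight_zero_const g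
    have h1 : (g : ℍ → ℂ) = c • (1 : ℍ → ℂ) := by
      rw [hc]; ext z; simp
    have h2 : qExpansion 1 (g : ℍ → ℂ) = c • (1 : PowerSeries ℂ) := by
      rw [h1, ← ModularForm.one_coe_eq_one (Γ := 𝒮ℒ),
        ModularForm.qExpansion_smul one_pos one_mem_strictPeriods_SL, ModularForm.qExpansion_one]
    rw [h2]
    by_cases hn : n = 0
    · simp [hn]
    · simp [hn, PowerSeries.coeff_one]
  refine ⟨?_, ?_⟩
  · refine Submodule.FG.of_le (Submodule.fg_span (Set.finite_singleton (coeffL 0 0))) ?_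
    refine Submodule.span_le.mpr ?_
    rintro _ ⟨n, rfl⟩
    by_cases hn : n = 0
    · subst hn
      exact Submodule.subset_span rfl
    · have : coeffL 0 n = 0 := by
        refine LinearMap.ext fun g => ?_
        rw [coeffL_apply, key g n, if_neg hn]; rfl
      rw [this]
      exact Submodule.zero_mem _
  · intro σ g
    obtain ⟨c, hc⟩ := ModularFormClass.levelOne_weight_zero_const g
    refine ⟨σ ((qExpansion 1 g).coeff 0) • (1 : ModularForm 𝒮ℒ 0), fun n => ?_⟩
    rw [FunLike.coe_smul, ModularForm.qExpansion_smul one_pos one_mem_strictPeriods_SL,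
      ModularForm.qExpansion_one, key g n]
    by_cases hn : n = 0
    · simp [hn]
    · simp [hn, PowerSeries.coeff_one]

/-- Division of `g - a₀(g) • E` by `Δ`, as a linear map `M_K → M_{K-12}`. -/
noncomputable def divMap (K : ℤ) (E : ModularForm 𝒮ℒ K) (hE0 : (qExpansion 1 E).coeff 0 = 1) :
    ModularForm 𝒮ℒ K →ₗ[ℂ] ModularForm 𝒮ℒ (K - 12) where
  toFun g := CuspForm.discriminantEquiv
    (toCuspForm (g - (qExpansion 1 g).coeff 0 • E)
      ((isCuspForm_iff_coeffZero_eq_zero _).mp (sub_smul_isCuspForm g E hE0)))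
  map_add' f g := by
    ext z
    have h := (coeffL K 0).map_add f g
    simp only [coeffL_apply] at h
    simp only [CuspForm.discriminantEquiv_apply, toCuspForm_apply, add_apply,
      sub_apply, smul_apply, smul_eq_mul, h]
    ring
  map_smul' c f := by
    ext z
    have h := (coeffL K 0).map_smul c f
    simp only [coeffL_apply, smul_eq_mul] at h
    simp only [CuspForm.discriminantEquiv_apply, toCuspForm_apply,
      sub_apply, smul_apply, smul_eq_mul, h, RingHom.id_apply]
    ring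

theorem qExpansion_eq_divMap (K : ℤ) (E : ModularForm 𝒮ℒ K)
    (hE0 : (qExpansion 1 E).coeff 0 = 1) (g : ModularForm 𝒮ℒ K) :
    qExpansion 1 g = (qExpansion 1 g).coeff 0 • qExpansion 1 E +
      qExpansion 1 ModularForm.discriminant * qExpansion 1 (divMap K E hE0 g) := by
  have h := qExpansion_eq_qExpansion_discriminant_mul (g - (qExpansion 1 g).coeff 0 • E)
    ((isCuspForm_iff_coeffZero_eq_zero _).mp (sub_smul_isCuspForm g E hE0))
  have h2 : qExpansion 1 (g - (qExpansion 1 g).coeff 0 • E : ModularForm 𝒮ℒ K) =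
      qExpansion 1 g - (qExpansion 1 g).coeff 0 • qExpansion 1 E := by
    rw [FunLike.coe_sub, ModularForm.qExpansion_sub one_pos one_mem_strictPeriods_SL,
      FunLike.coe_smul, ModularForm.qExpansion_smul one_pos one_mem_strictPeriods_SL]
  exact (sub_eq_iff_eq_add'.mp (h2.symm.trans h))

theorem coeff_eq_divMap (K : ℤ) (E : ModularForm 𝒮ℒ K)
    (hE0 : (qExpansion 1 E).coeff 0 = 1) (g : ModularForm 𝒮ℒ K) (n : ℕ) :
    (qExpansion 1 g).coeff n = (qExpansion 1 g).coeff 0 * (qExpansion 1 E).coeff n +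
      ∑ p ∈ Finset.HasAntidiagonal.antidiagonal n, (qExpansion 1 ModularForm.discriminant).coeff p.1 *
        (qExpansion 1 (divMap K E hE0 g)).coeff p.2 := by
  conv_lhs => rw [qExpansion_eq_divMap K E hE0 g]
  rw [map_add, PowerSeries.coeff_smul, PowerSeries.coeff_mul, smul_eq_mul]

theorem good_step (K : ℤ) (E : ModularForm 𝒮ℒ K) (hE0 : (qExpansion 1 E).coeff 0 = 1)
    (ρ : ℚ)
    (hE : ∀ n : ℕ, ∃ m₁ m₂ : ℤ, (qExpansion 1 E).coeff n = (m₁ : ℂ) + (ρ : ℂ) * (m₂ : ℂ))
    (ih : Good (K - 12)) : Good K := by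
  obtain ⟨ihfg, ihconj⟩ := ih
  have hτ : ∀ i : ℕ, ∃ m : ℤ, (qExpansion 1 ModularForm.discriminant).coeff i = (m : ℂ) :=
    discriminant_qExpansion_coeff_int
  choose t ht using hτ
  refine ⟨?_, ?_⟩
  · let Φ : (ModularForm 𝒮ℒ (K - 12) →ₗ[ℂ] ℂ) →ₗ[ℤ] (ModularForm 𝒮ℒ K →ₗ[ℂ] ℂ) :=
      { toFun := fun ψ => ψ.comp (divMap K E hE0)
        map_add' := fun ψ₁ ψ₂ => LinearMap.add_comp _ _ _
        map_smul' := fun c ψ => by ext g; simp }
    have hT : (Submodule.span ℤ {coeffL K 0, (ρ : ℂ) • coeffL K 0} ⊔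
        (Submodule.span ℤ (Set.range (coeffL (K - 12)))).map Φ).FG :=
      Submodule.FG.sup (Submodule.fg_span (by simp)) (ihfg.map Φ)
    refine Submodule.FG.of_le hT (Submodule.span_le.mpr ?_)
    rintro _ ⟨n, rfl⟩
    obtain ⟨m₁, m₂, hm⟩ := hE n
    have : coeffL K n = (m₁ • coeffL K 0 + m₂ • ((ρ : ℂ) • coeffL K 0)) +
        ∑ p ∈ Finset.HasAntidiagonal.antidiagonal n, t p.1 • Φ (coeffL (K - 12) p.2) := by
      refine LinearMap.ext fun g => ?_
      rw [coeffL_apply, coeff_eq_divMap K E hE0 g n, hm]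
      simp only [LinearMap.add_apply, LinearMap.smul_apply, LinearMap.sum_apply, coeffL_apply,
        zsmul_eq_mul, smul_eq_mul, ht, Φ, LinearMap.coe_mk, AddHom.coe_mk, LinearMap.comp_apply]
      ring
    rw [this]
    refine Submodule.add_mem _ (Submodule.mem_sup_left ?_) (Submodule.mem_sup_right ?_)
    · exact Submodule.add_mem _ (Submodule.smul_mem _ _ (Submodule.subset_span (by simp)))
        (Submodule.smul_mem _ _ (Submodule.subset_span (by simp)))
    · refine Submodule.sum_mem _ fun p _ => Submodule.smul_mem _ _ ?_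
      exact Submodule.mem_map_of_mem (Submodule.subset_span ⟨p.2, rfl⟩)
  · intro σ g
    obtain ⟨h', hh'⟩ := ihconj σ (divMap K E hE0 g)
    let G : ModularForm 𝒮ℒ K := CuspForm.toModularFormₗ (CuspForm.discriminantEquiv.symm h')
    have hG : (G : ℍ → ℂ) = (CuspForm.discriminant : ℍ → ℂ) * (h' : ℍ → ℂ) := by
      ext z; rfl
    have hGq : qExpansion 1 (G : ℍ → ℂ) =
        qExpansion 1 ModularForm.discriminant * qExpansion 1 (h' : ℍ → ℂ) := by
      rw [hG, ModularForm.qExpansion_mul_coe one_pos one_mem_strictPeriods_SL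
        CuspForm.discriminant h', CuspForm.coe_discriminant]
    refine ⟨σ ((qExpansion 1 g).coeff 0) • E + G, fun n => ?_⟩
    rw [FunLike.coe_add, ModularForm.qExpansion_add one_pos one_mem_strictPeriods_SL,
      FunLike.coe_smul, ModularForm.qExpansion_smul one_pos one_mem_strictPeriods_SL, hGq,
      map_add, PowerSeries.coeff_smul, PowerSeries.coeff_mul, smul_eq_mul,
      coeff_eq_divMap K E hE0 g n, map_add, map_mul, map_sum]
    obtain ⟨m₁, m₂, hm⟩ := hE n
    congr 1
    · rw [hm]; simp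
    · refine Finset.sum_congr rfl fun p _ => ?_
      rw [map_mul, hh', ht]; simp

theorem good_all (K : ℤ) : Good K := by
  induction' hn : K.toNat using Nat.strong_induction_on with n ih generalizing K
  rcases lt_or_ge K 0 with hneg | hnn
  · exact good_of_forall_eq_zero K
      (rank_zero_iff_forall_zero.mp (ModularForm.levelOne_neg_weight_rank_zero hneg))
  rcases Int.even_or_odd K with hev | hodd
  swap
  · exact good_of_forall_eq_zero K (ModularForm.levelOne_odd_weight_eq_zero hodd)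
  lift K to ℕ using hnn
  have hev' : Even K := by exact_mod_cast hev
  rcases Nat.lt_or_ge K 3 with h3 | h3
  · interval_cases K
    · exact good_zero
    · exact absurd hev' (by decide)
    · exact good_of_forall_eq_zero _
        (rank_zero_iff_forall_zero.mp ModularForm.levelOne_weight_two_rank_zero)
  · refine good_step (K : ℤ) (ModularForm.E h3) (EisensteinSeries.E_qExpansion_coeff_zero h3 hev')
      (-(2 * K / bernoulli K)) ?_ (ih (((K : ℤ) - 12).toNat) ?_ _ rfl)
    · intro m
      rw [EisensteinSeries.E_qExpansion_coeff h3 hev' m]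
      by_cases hm : m = 0
      · exact ⟨1, 0, by simp [hm]⟩
      · refine ⟨0, (ArithmeticFunction.sigma (K - 1) m : ℤ), ?_⟩
        simp only [hm, if_false]
        push_cast
        ring
    · subst hn
      omega

end LevelOne

open LevelOne in
theorem levelOne_coeff_lattice (K : ℤ) :
    ∃ s : Finset (ModularForm 𝒮ℒ K →ₗ[ℂ] ℂ), ∀ n : ℕ,
      ∃ c : (ModularForm 𝒮ℒ K →ₗ[ℂ] ℂ) → ℤ, ∀ g : ModularForm 𝒮ℒ K,
        (qExpansion 1 g).coeff n = ∑ ψ ∈ s, (c ψ : ℂ) * ψ g := by
  obtain ⟨s, hs⟩ := (good_all K).1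
  refine ⟨s, fun n => ?_⟩
  have hmem : coeffL K n ∈ Submodule.span ℤ (s : Set (ModularForm 𝒮ℒ K →ₗ[ℂ] ℂ)) := by
    rw [hs]
    exact Submodule.subset_span ⟨n, rfl⟩
  obtain ⟨c, -, hc⟩ := Submodule.mem_span_finset.mp hmem
  refine ⟨c, fun g => ?_⟩
  rw [← coeffL_apply, ← hc]
  simp only [LinearMap.sum_apply, LinearMap.smul_apply, zsmul_eq_mul]

open LevelOne in
theorem levelOne_conj (σ : ℂ ≃+* ℂ) (K : ℤ) (g : ModularForm 𝒮ℒ K) :
    ∃ g' : ModularForm 𝒮ℒ K, ∀ n : ℕ,
      (qExpansion 1 g').coeff n = σ ((qExpansion 1 g).coeff n) :=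
  (good_all K).2 σ g

end Fermat.Agent.S22
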