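import Mathlib
import Fermat.Agent.S22.Defs
import Fermat.Agent.S22.LevelOne
import Fermat.Agent.S22.ConjQExp
import Fermat.Agent.S22.Esymm
import Fermat.Agent.S22.LagAlg
import Fermat.Prelude.Thm_UpperHalfPlane_qExpansion_coeff_nat_mul
import Fermat.Prelude.Thm_UpperHalfPlane_qExpansion_prod
import Fermat.Prelude.Thm_CongruenceSubgroup_one_mem_strictPeriods_Gamma0

set_option autoImplicit false

namespace Fermat.Agent.S22

open UpperHalfPlane ModularForm CongruenceSubgroup SlashInvariantForm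
open scoped MatrixGroups ModularForm Manifold

namespace Key

/-! ### Power series with coefficients in a finitely generated `ℤ`-module -/

/-- A power series all of whose coefficients lie in one finitely generated `ℤ`-submodule
of `ℂ`. -/
def FGSeries (w : PowerSeries ℂ) : Prop :=
  ∃ R : Submodule ℤ ℂ, R.FG ∧ ∀ n, PowerSeries.coeff n w ∈ R

theorem FGSeries.mul {w₁ w₂ : PowerSeries ℂ} (h₁ : FGSeries w₁) (h₂ : FGSeries w₂) :
    FGSeries (w₁ * w₂) := by
  obtain ⟨R₁, hR₁, h₁⟩ := h₁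
  obtain ⟨R₂, hR₂, h₂⟩ := h₂
  refine ⟨R₁ * R₂, hR₁.mul hR₂, fun n => ?_⟩
  rw [PowerSeries.coeff_mul]
  exact Submodule.sum_mem _ fun p _ => Submodule.mul_mem_mul (h₁ _) (h₂ _)

theorem FGSeries.const (c : ℂ) : FGSeries (PowerSeries.C c) := by
  refine ⟨Submodule.span ℤ {c}, Submodule.fg_span_singleton c, fun n => ?_⟩
  rw [PowerSeries.coeff_C]
  split_ifs
  · exact Submodule.subset_span rfl
  · exact Submodule.zero_mem _

theorem FGSeries.smul (c : ℂ) {w : PowerSeries ℂ} (h : FGSeries w) : FGSeries (c • w) := by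
  have : c • w = PowerSeries.C c * w := by
    ext n; simp
  rw [this]
  exact (FGSeries.const c).mul h

theorem FGSeries.one : FGSeries (1 : PowerSeries ℂ) := by
  simpa using FGSeries.const 1

theorem FGSeries.pow {w : PowerSeries ℂ} (h : FGSeries w) (n : ℕ) : FGSeries (w ^ n) := by
  induction n with
  | zero => simpa using FGSeries.one
  | succ n ih => rw [pow_succ]; exact ih.mul h

theorem FGSeries.map_of_finite {A : Subalgebra ℤ ℂ} [Module.Finite ℤ A] (W : PowerSeries A) :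
    FGSeries (W.map (algebraMap A ℂ)) := by
  refine ⟨Subalgebra.toSubmodule A, ?_, fun n => ?_⟩
  · exact (Module.Finite.iff_fg (N := Subalgebra.toSubmodule A)).mp inferInstance
  · rw [PowerSeries.coeff_map]
    exact (PowerSeries.coeff n W).2

/-- If each coefficient of `w'` is zero or a coefficient of `w`, then `w'` inherits `FGSeries`. -/
theorem FGSeries.of_coeff {w w' : PowerSeries ℂ} (h : FGSeries w)
    (hc : ∀ n, PowerSeries.coeff n w' = 0 ∨ ∃ m, PowerSeries.coeff n w' = PowerSeries.coeff m w) :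
    FGSeries w' := by
  obtain ⟨R, hR, h⟩ := h
  refine ⟨R, hR, fun n => ?_⟩
  rcases hc n with h0 | ⟨m, hm⟩
  · rw [h0]; exact Submodule.zero_mem _
  · rw [hm]; exact h m

/-! ### Linear maps to power series whose coefficient functionals span a f.g. `ℤ`-module -/

section FGCoeffs

variable {V : Type*} [AddCommGroup V] [Module ℂ V]

/-- The coefficient functionals of `E` lie in one finitely generated `ℤ`-module of functionals. -/
def FGCoeffs (E : V →ₗ[ℂ] PowerSeries ℂ) : Prop :=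
  ∃ Λ : Submodule ℤ (Module.Dual ℂ V), Λ.FG ∧
    ∀ n : ℕ, (PowerSeries.coeff n : PowerSeries ℂ →ₗ[ℂ] ℂ) ∘ₗ E ∈ Λ

theorem FGCoeffs.of_finset {E : V →ₗ[ℂ] PowerSeries ℂ}
    (h : ∃ s : Finset (V →ₗ[ℂ] ℂ), ∀ n : ℕ, ∃ c : (V →ₗ[ℂ] ℂ) → ℤ, ∀ v : V,
      PowerSeries.coeff n (E v) = ∑ ψ ∈ s, (c ψ : ℂ) * ψ v) : FGCoeffs E := by
  obtain ⟨s, hs⟩ := h
  refine ⟨Submodule.span ℤ (s : Set (Module.Dual ℂ V)), Submodule.fg_span s.finite_toSet,
    fun n => ?_⟩
  obtain ⟨c, hc⟩ := hs n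
  have : (PowerSeries.coeff n : PowerSeries ℂ →ₗ[ℂ] ℂ) ∘ₗ E = ∑ ψ ∈ s, c ψ • ψ := by
    ext v
    simp only [LinearMap.coe_comp, Function.comp_apply, hc v, LinearMap.coe_sum, Finset.sum_apply,
      LinearMap.smul_apply, zsmul_eq_mul]
  rw [this]
  exact Submodule.sum_mem _ fun ψ hψ => Submodule.smul_mem _ _ (Submodule.subset_span hψ)

theorem FGCoeffs.to_finset {E : V →ₗ[ℂ] PowerSeries ℂ} (h : FGCoeffs E) :
    ∃ s : Finset (V →ₗ[ℂ] ℂ), ∀ n : ℕ, ∃ c : (V →ₗ[ℂ] ℂ) → ℤ, ∀ v : V,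
      PowerSeries.coeff n (E v) = ∑ ψ ∈ s, (c ψ : ℂ) * ψ v := by
  classical
  obtain ⟨Λ, ⟨s, hs⟩, hΛ⟩ := h
  refine ⟨s, fun n => ?_⟩
  have hmem := hΛ n
  rw [← hs] at hmem
  obtain ⟨c, hc⟩ := (Submodule.mem_span_finset).mp hmem
  refine ⟨c, fun v => ?_⟩
  have := congrArg (fun φ : Module.Dual ℂ V => φ v) hc.2
  simp only [LinearMap.coe_sum, Finset.sum_apply, LinearMap.smul_apply, zsmul_eq_mul,
    LinearMap.coe_comp, Function.comp_apply] at this
  exact this.symm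

theorem FGCoeffs.comp {V' : Type*} [AddCommGroup V'] [Module ℂ V'] {E : V →ₗ[ℂ] PowerSeries ℂ}
    (h : FGCoeffs E) (L : V' →ₗ[ℂ] V) : FGCoeffs (E ∘ₗ L) := by
  obtain ⟨Λ, hΛ, h⟩ := h
  let T : Module.Dual ℂ V →ₗ[ℤ] Module.Dual ℂ V' :=
    { toFun := fun φ => φ ∘ₗ L
      map_add' := fun φ ψ => by ext; simp
      map_smul' := fun c φ => by ext; simp }
  refine ⟨Λ.map T, hΛ.map T, fun n => ?_⟩
  exact ⟨_, h n, rfl⟩

theorem FGCoeffs.add {E₁ E₂ : V →ₗ[ℂ] PowerSeries ℂ} (h₁ : FGCoeffs E₁) (h₂ : FGCoeffs E₂) :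
    FGCoeffs (E₁ + E₂) := by
  obtain ⟨Λ₁, hΛ₁, h₁⟩ := h₁
  obtain ⟨Λ₂, hΛ₂, h₂⟩ := h₂
  refine ⟨Λ₁ ⊔ Λ₂, hΛ₁.sup hΛ₂, fun n => ?_⟩
  rw [LinearMap.comp_add]
  exact Submodule.add_mem_sup (h₁ n) (h₂ n)

theorem FGCoeffs.zero : FGCoeffs (0 : V →ₗ[ℂ] PowerSeries ℂ) :=
  ⟨⊥, Submodule.fg_bot, fun n => by simp⟩

theorem FGCoeffs.sum {ι : Type*} (s : Finset ι) (E : ι → V →ₗ[ℂ] PowerSeries ℂ)
    (h : ∀ i ∈ s, FGCoeffs (E i)) : FGCoeffs (∑ i ∈ s, E i) := by
  classical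
  induction s using Finset.induction_on with
  | empty => simpa using FGCoeffs.zero
  | insert a s ha ih =>
    rw [Finset.sum_insert ha]
    exact (h a (Finset.mem_insert_self a s)).add (ih fun i hi => h i (Finset.mem_insert_of_mem hi))

/-- Multiplying by a fixed power series with coefficients in a f.g. `ℤ`-module. -/
theorem FGCoeffs.mulLeft {E : V →ₗ[ℂ] PowerSeries ℂ} (h : FGCoeffs E) {w : PowerSeries ℂ}
    (hw : FGSeries w) : FGCoeffs ((LinearMap.mulLeft ℂ w) ∘ₗ E) := by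
  obtain ⟨Λ, hΛ, h⟩ := h
  obtain ⟨R, hR, hw⟩ := hw
  let B : ℂ →ₗ[ℤ] Module.Dual ℂ V →ₗ[ℤ] Module.Dual ℂ V :=
    LinearMap.mk₂ ℤ (fun (r : ℂ) (φ : Module.Dual ℂ V) => r • φ)
      (fun r r' φ => add_smul r r' φ) (fun c r φ => by ext v; simp [mul_assoc])
      (fun r φ ψ => smul_add r φ ψ) (fun c r φ => by ext v; simp [mul_left_comm])
  refine ⟨Submodule.map₂ B R Λ, hR.map₂ B hΛ, fun n => ?_⟩
  have : (PowerSeries.coeff n : PowerSeries ℂ →ₗ[ℂ] ℂ) ∘ₗ ((LinearMap.mulLeft ℂ w) ∘ₗ E) =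
      ∑ p ∈ Finset.HasAntidiagonal.antidiagonal n, B (PowerSeries.coeff p.1 w)
        ((PowerSeries.coeff p.2 : PowerSeries ℂ →ₗ[ℂ] ℂ) ∘ₗ E) := by
    ext v
    simp only [LinearMap.coe_comp, Function.comp_apply, LinearMap.mulLeft_apply,
      PowerSeries.coeff_mul, LinearMap.coe_sum, Finset.sum_apply, B, LinearMap.mk₂_apply,
      LinearMap.smul_apply, smul_eq_mul]
  rw [this]
  exact Submodule.sum_mem _ fun p _ => Submodule.apply_mem_map₂ B (hw p.1) (h p.2)

/-- If each coefficient functional of `E'` is zero or a coefficient functional of `E`. -/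
theorem FGCoeffs.of_coeff {E E' : V →ₗ[ℂ] PowerSeries ℂ} (h : FGCoeffs E)
    (hc : ∀ n, (∀ v, PowerSeries.coeff n (E' v) = 0) ∨
      ∃ m, ∀ v, PowerSeries.coeff n (E' v) = PowerSeries.coeff m (E v)) : FGCoeffs E' := by
  obtain ⟨Λ, hΛ, h⟩ := h
  refine ⟨Λ, hΛ, fun n => ?_⟩
  rcases hc n with h0 | ⟨m, hm⟩
  · have : (PowerSeries.coeff n : PowerSeries ℂ →ₗ[ℂ] ℂ) ∘ₗ E' = 0 := by
      ext v; simpa using h0 v
    rw [this]; exact Submodule.zero_mem _
  · have : (PowerSeries.coeff n : PowerSeries ℂ →ₗ[ℂ] ℂ) ∘ₗ E' =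
        (PowerSeries.coeff m : PowerSeries ℂ →ₗ[ℂ] ℂ) ∘ₗ E := by
      ext v; simpa using hm v
    rw [this]; exact h m

/-- Division by `X ^ M`. -/
theorem FGCoeffs.of_X_pow_mul {E E' : V →ₗ[ℂ] PowerSeries ℂ} (h : FGCoeffs E) (M : ℕ)
    (hE : ∀ v, (PowerSeries.X : PowerSeries ℂ) ^ M * E' v = E v) : FGCoeffs E' := by
  refine h.of_coeff fun n => Or.inr ⟨n + M, fun v => ?_⟩
  rw [← hE v, PowerSeries.coeff_X_pow_mul]

end FGCoeffs

/-! ### Functions whose cusp function (for period `h`) is analytic at `0` -/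

section Nice

variable {h : ℝ}

/-- `g` has an analytic cusp function (for period `h`) at `0`. -/
def Nice (h : ℝ) (g : ℍ → ℂ) : Prop := AnalyticAt ℂ (cuspFunction h g) 0

theorem Nice.mul {g₁ g₂ : ℍ → ℂ} (h₁ : Nice h g₁) (h₂ : Nice h g₂) : Nice h (g₁ * g₂) := by
  unfold Nice at *
  rw [cuspFunction_mul h₁.continuousAt h₂.continuousAt]
  exact h₁.mul h₂

theorem Nice.add {g₁ g₂ : ℍ → ℂ} (h₁ : Nice h g₁) (h₂ : Nice h g₂) : Nice h (g₁ + g₂) := by
  unfold Nice at *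
  rw [cuspFunction_add h₁.continuousAt h₂.continuousAt]
  exact h₁.add h₂

theorem Nice.sub {g₁ g₂ : ℍ → ℂ} (h₁ : Nice h g₁) (h₂ : Nice h g₂) : Nice h (g₁ - g₂) := by
  unfold Nice at *
  rw [cuspFunction_sub h₁.continuousAt h₂.continuousAt]
  exact h₁.sub h₂

theorem Nice.smul (c : ℂ) {g : ℍ → ℂ} (h₁ : Nice h g) : Nice h (c • g) := by
  unfold Nice at *
  rw [cuspFunction_smul h₁.continuousAt]
  exact h₁.const_smul

theorem cuspFunction_one' : cuspFunction h (1 : ℍ → ℂ) = 1 := by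
  ext q
  rcases eq_or_ne q 0 with rfl | hq
  · simpa [cuspFunction, Function.Periodic.cuspFunction] using! tendsto_const_nhds.limUnder_eq
  · simp [cuspFunction, Function.Periodic.cuspFunction_eq_of_nonzero h _ hq]

theorem Nice.one : Nice h (1 : ℍ → ℂ) := by
  unfold Nice
  rw [cuspFunction_one']
  exact analyticAt_const

theorem Nice.zero : Nice h (0 : ℍ → ℂ) := by
  have := (Nice.one (h := h)).smul 0
  simpa using this

theorem Nice.pow {g : ℍ → ℂ} (h₁ : Nice h g) (n : ℕ) : Nice h (g ^ n) := by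
  induction n with
  | zero => simpa using Nice.one
  | succ n ih => rw [pow_succ]; exact ih.mul h₁

theorem Nice.prod {ι : Type*} (s : Finset ι) (g : ι → ℍ → ℂ) (hg : ∀ i ∈ s, Nice h (g i)) :
    Nice h (∏ i ∈ s, g i) := by
  classical
  induction s using Finset.induction_on with
  | empty => simpa using Nice.one
  | insert a s ha ih =>
    rw [Finset.prod_insert ha]
    exact (hg a (Finset.mem_insert_self a s)).mul (ih fun i hi => hg i (Finset.mem_insert_of_mem hi))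

theorem Nice.sum {ι : Type*} (s : Finset ι) (g : ι → ℍ → ℂ) (hg : ∀ i ∈ s, Nice h (g i)) :
    Nice h (∑ i ∈ s, g i) := by
  classical
  induction s using Finset.induction_on with
  | empty => simpa using Nice.zero
  | insert a s ha ih =>
    rw [Finset.sum_insert ha]
    exact (hg a (Finset.mem_insert_self a s)).add (ih fun i hi => hg i (Finset.mem_insert_of_mem hi))

theorem qExpansion_sum' {ι : Type*} (s : Finset ι) (g : ι → ℍ → ℂ) (hg : ∀ i ∈ s, Nice h (g i)) :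
    qExpansion h (∑ i ∈ s, g i) = ∑ i ∈ s, qExpansion h (g i) := by
  classical
  induction s using Finset.induction_on with
  | empty => simpa using qExpansion_zero h
  | insert a s ha ih =>
    rw [Finset.sum_insert ha, Finset.sum_insert ha,
      qExpansion_add (hg a (Finset.mem_insert_self a s))
        (Nice.sum s g fun i hi => hg i (Finset.mem_insert_of_mem hi)),
      ih fun i hi => hg i (Finset.mem_insert_of_mem hi)]

theorem qExpansion_pow' {g : ℍ → ℂ} (h₁ : Nice h g) (n : ℕ) :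
    qExpansion h (g ^ n) = qExpansion h g ^ n := by
  induction n with
  | zero => simpa using qExpansion_one h
  | succ n ih => rw [pow_succ, pow_succ, qExpansion_mul (h₁.pow n) h₁, ih]

end Nice


/-! ### Periods and `q`-expansion linear maps -/

section Main

theorem natCast_mem_strictPeriods_Gamma0 (N : ℕ) :
    (N : ℝ) ∈ (Gamma0 N : Subgroup (GL (Fin 2) ℝ)).strictPeriods := by
  rw [strictPeriods_Gamma0]
  exact ⟨N, by simp⟩

theorem natCast_mem_strictPeriods_SL (N : ℕ) : (N : ℝ) ∈ (𝒮ℒ).strictPeriods := by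
  rw [Subgroup.strictPeriods_SL2Z]
  exact ⟨N, by simp⟩

theorem one_mem_strictPeriods_Gamma0' (N : ℕ) :
    (1 : ℝ) ∈ (Gamma0 N : Subgroup (GL (Fin 2) ℝ)).strictPeriods := by
  rw [strictPeriods_Gamma0]
  exact ⟨1, by simp⟩

theorem one_mem_strictPeriods_SL' : (1 : ℝ) ∈ (𝒮ℒ).strictPeriods := by
  rw [Subgroup.strictPeriods_SL2Z]
  exact ⟨1, by simp⟩

theorem natCast_pos' (N : ℕ) [NeZero N] : (0 : ℝ) < N := Nat.cast_pos.mpr (NeZero.pos N)

theorem Nice.of_modularForm {Γ : Subgroup (GL (Fin 2) ℝ)} {K : ℤ} {h : ℝ} (hh : 0 < h)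
    (hΓ : h ∈ Γ.strictPeriods) (g : ModularForm Γ K) : Nice h g :=
  ModularFormClass.analyticAt_cuspFunction_zero g hh hΓ

/-- The `q`-expansion (for period `h`) as a linear map on modular forms. -/
noncomputable def qExpLin {Γ : Subgroup (GL (Fin 2) ℝ)} [Γ.HasDetOne] (K : ℤ) (h : ℝ) (hh : 0 < h)
    (hΓ : h ∈ Γ.strictPeriods) : ModularForm Γ K →ₗ[ℂ] PowerSeries ℂ where
  toFun g := qExpansion h g
  map_add' g₁ g₂ := by
    simpa using ModularForm.qExpansion_add hh hΓ g₁ g₂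
  map_smul' c g := by
    simpa using ModularForm.qExpansion_smul hh hΓ c g

@[simp] theorem qExpLin_apply {Γ : Subgroup (GL (Fin 2) ℝ)} [Γ.HasDetOne] (K : ℤ) (h : ℝ) (hh : 0 < h)
    (hΓ : h ∈ Γ.strictPeriods) (g : ModularForm Γ K) :
    qExpLin K h hh hΓ g = qExpansion h g := rfl

theorem FGCoeffs.apply {V : Type*} [AddCommGroup V] [Module ℂ V] {E : V →ₗ[ℂ] PowerSeries ℂ}
    (h : FGCoeffs E) (v : V) : FGSeries (E v) := by
  obtain ⟨Λ, hΛ, h⟩ := h
  let T : Module.Dual ℂ V →ₗ[ℤ] ℂ :=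
    { toFun := fun φ => φ v
      map_add' := fun φ ψ => by simp
      map_smul' := fun c φ => by simp }
  exact ⟨Λ.map T, hΛ.map T, fun n => ⟨_, h n, rfl⟩⟩

/-- Passing from period `1` to period `N`: the `n`-th coefficient is `0` or the `n / N`-th. -/
theorem coeff_qExpansion_natCast {Γ : Subgroup (GL (Fin 2) ℝ)} [Fact (IsCusp OnePoint.infty Γ)]
    {K : ℤ} (h1 : (1 : ℝ) ∈ Γ.strictPeriods)
    (N : ℕ) [NeZero N] (g : ModularForm Γ K) (n : ℕ) :
    (qExpansion (N : ℝ) g).coeff n = if N ∣ n then (qExpansion 1 g).coeff (n / N) else 0 := by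
  have := UpperHalfPlane.qExpansion_coeff_nat_mul (h := 1) one_pos
    (SlashInvariantFormClass.periodic_comp_ofComplex g h1)
    (ModularFormClass.holo g) (ModularFormClass.bdd_at_infty g) (NeZero.pos N) n
  simpa using this


/-! ### Level one input -/

theorem fgCoeffs_levelOne_one (K : ℤ) :
    FGCoeffs (qExpLin (Γ := 𝒮ℒ) K 1 one_pos one_mem_strictPeriods_SL') :=
  FGCoeffs.of_finset (levelOne_coeff_lattice K)

theorem fgCoeffs_levelOne (N : ℕ) [NeZero N] (K : ℤ) :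
    FGCoeffs (qExpLin (Γ := 𝒮ℒ) K N (natCast_pos' N) (natCast_mem_strictPeriods_SL N)) := by
  refine (fgCoeffs_levelOne_one K).of_coeff fun n => ?_
  by_cases hn : N ∣ n
  · exact Or.inr ⟨n / N, fun g => by
      simp [coeff_qExpansion_natCast one_mem_strictPeriods_SL' N g n, hn]⟩
  · exact Or.inl fun g => by
      simp [coeff_qExpansion_natCast one_mem_strictPeriods_SL' N g n, hn]

theorem fgSeries_levelOne (N : ℕ) [NeZero N] {K : ℤ} (g : ModularForm 𝒮ℒ K) :
    FGSeries (qExpansion (N : ℝ) g) :=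
  (fgCoeffs_levelOne N K).apply g

theorem fgSeries_xForm (N : ℕ) [NeZero N] : FGSeries (qExpansion (N : ℝ) (xForm N)) := by
  obtain ⟨X', hX'⟩ := xForm_qExpansion_mem N
  rw [hX']
  have := zetaRing_finite N
  exact FGSeries.map_of_finite X'

/-! ### The Lagrange identity for modular forms -/

theorem key_identity (N : ℕ) [NeZero N] {k : ℤ} (F : ModularForm (Gamma0 N) k) :
    (F : ℍ → ℂ) * ∏ q ∈ (Finset.univ : Finset (Q N)).erase (q0 N),
        ((xForm N : ℍ → ℂ) - quotientFunc (xForm N) q) =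
      ∑ m ∈ Finset.range (Fintype.card (Q N)), ∑ b ∈ Finset.range (Fintype.card (Q N) - m),
        ((-1 : ℂ) ^ m) • ((esymmForm (xForm N) m : ℍ → ℂ) * (trMulPow (xForm N) b F : ℍ → ℂ) *
          (xForm N : ℍ → ℂ) ^ (Fintype.card (Q N) - 1 - m - b)) := by
  funext τ
  have := lagrange_alg (q0 N) (fun q => quotientFunc F q τ) (fun q => quotientFunc (xForm N) q τ)
  simp only [quotientFunc_q0] at this
  simp only [Pi.mul_apply, Finset.prod_apply, Pi.sub_apply, Finset.sum_apply, Pi.smul_apply,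
    Pi.pow_apply, smul_eq_mul, esymmForm_apply, trMulPow_apply]
  rw [this]
  refine Finset.sum_congr rfl fun m _ => Finset.sum_congr rfl fun b _ => ?_
  ring


/-! ### The `q`-expansion of the resolvent denominator -/

theorem nice_xForm (N : ℕ) [NeZero N] : Nice (N : ℝ) (xForm N : ℍ → ℂ) :=
  Nice.of_modularForm (natCast_pos' N) (natCast_mem_strictPeriods_Gamma0 N) (xForm N)

theorem nice_quotientFunc_xForm (N : ℕ) [NeZero N] (q : Q N) :
    Nice (N : ℝ) (quotientFunc (xForm N) q) := by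
  obtain ⟨γ, hγ⟩ := quotientFunc_exists (xForm N) q
  rw [hγ]
  exact analyticAt_cuspFunction_xForm_slash N γ

theorem exists_unit_factor (N : ℕ) [NeZero N] :
    ∃ (C : ℂ) (M : ℕ) (U : PowerSeries (zetaRing N)), C ≠ 0 ∧ PowerSeries.constantCoeff U = 1 ∧
      qExpansion (N : ℝ) (∏ q ∈ (Finset.univ : Finset (Q N)).erase (q0 N),
        ((xForm N : ℍ → ℂ) - quotientFunc (xForm N) q)) =
      C • (PowerSeries.X ^ M * U.map (algebraMap (zetaRing N) ℂ)) := by
  have key : ∀ q : Q N, q ≠ q0 N → ∃ (C : ℂ) (e : ℕ) (U : PowerSeries (zetaRing N)),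
      C ≠ 0 ∧ PowerSeries.constantCoeff U = 1 ∧
      qExpansion (N : ℝ) ((xForm N : ℍ → ℂ) - quotientFunc (xForm N) q) =
        C • (PowerSeries.X ^ e * U.map (algebraMap (zetaRing N) ℂ)) := by
    intro q hq
    obtain ⟨γ, hγ, hq'⟩ := quotientFunc_of_ne_q0 (xForm N) q hq
    rw [hq']
    exact qExpansion_xForm_sub_slash N γ hγ
  choose! C e U hC hU hexp using key
  refine ⟨∏ q ∈ Finset.univ.erase (q0 N), C q, ∑ q ∈ Finset.univ.erase (q0 N), e q,
    ∏ q ∈ Finset.univ.erase (q0 N), U q, ?_, ?_, ?_⟩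
  · exact Finset.prod_ne_zero_iff.mpr fun q hq => hC q (Finset.ne_of_mem_erase hq)
  · rw [map_prod]
    exact Finset.prod_eq_one fun q hq => hU q (Finset.ne_of_mem_erase hq)
  · rw [UpperHalfPlane.qExpansion_prod _
      (fun q _ => (nice_xForm N).sub (nice_quotientFunc_xForm N q)),
      Finset.prod_congr rfl fun q hq => hexp q (Finset.ne_of_mem_erase hq),
      Finset.prod_smul, Finset.prod_mul_distrib, Finset.prod_pow_eq_pow_sum, map_prod]


/-! ### The main finiteness statement at period `N` -/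

theorem qExpansion_term (N : ℕ) [NeZero N] {K₁ K₂ : ℤ} (c : ℂ) (A : ModularForm 𝒮ℒ K₁)
    (B : ModularForm 𝒮ℒ K₂) (j : ℕ) :
    Nice (N : ℝ) (c • ((A : ℍ → ℂ) * (B : ℍ → ℂ) * (xForm N : ℍ → ℂ) ^ j)) ∧
    qExpansion (N : ℝ) (c • ((A : ℍ → ℂ) * (B : ℍ → ℂ) * (xForm N : ℍ → ℂ) ^ j)) =
      c • (qExpansion (N : ℝ) A * qExpansion (N : ℝ) B * qExpansion (N : ℝ) (xForm N) ^ j) := by
  have hA : Nice (N : ℝ) (A : ℍ → ℂ) :=
    Nice.of_modularForm (natCast_pos' N) (natCast_mem_strictPeriods_SL N) A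
  have hB : Nice (N : ℝ) (B : ℍ → ℂ) :=
    Nice.of_modularForm (natCast_pos' N) (natCast_mem_strictPeriods_SL N) B
  have hx := nice_xForm N
  refine ⟨((hA.mul hB).mul (hx.pow j)).smul c, ?_⟩
  rw [qExpansion_smul ((hA.mul hB).mul (hx.pow j)), qExpansion_mul (hA.mul hB) (hx.pow j),
    qExpansion_mul hA hB, qExpansion_pow' hx]

theorem fgCoeffs_cusp_natCast (N : ℕ) [NeZero N] (k : ℤ) :
    FGCoeffs ((qExpLin (Γ := Gamma0 N) k N (natCast_pos' N)
      (natCast_mem_strictPeriods_Gamma0 N)) ∘ₗ cuspToMod) := by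
  classical
  obtain ⟨C, M, U, hC, hU, hprod⟩ := exists_unit_factor N
  have hUunit : IsUnit U := by
    rw [PowerSeries.isUnit_iff_constantCoeff, hU]
    exact isUnit_one
  obtain ⟨V, hV⟩ := hUunit.exists_right_inv
  have hUV : U.map (algebraMap (zetaRing N) ℂ) * V.map (algebraMap (zetaRing N) ℂ) = 1 := by
    rw [← map_mul, hV, map_one]
  have hCC : PowerSeries.C C⁻¹ * PowerSeries.C C = (1 : PowerSeries ℂ) := by
    rw [← map_mul, inv_mul_cancel₀ hC, map_one]
  have hZ := zetaRing_finite N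
  let w : ℕ → ℕ → PowerSeries ℂ := fun m b =>
    C⁻¹ • (((-1 : ℂ) ^ m) • (V.map (algebraMap (zetaRing N) ℂ) *
      qExpansion (N : ℝ) (esymmForm (xForm N) m) *
      qExpansion (N : ℝ) (xForm N) ^ (Fintype.card (Q N) - 1 - m - b)))
  have hw : ∀ m b, FGSeries (w m b) := fun m b =>
    (((FGSeries.map_of_finite V).mul (fgSeries_levelOne N _)).mul
      ((fgSeries_xForm N).pow _)).smul _ |>.smul _
  let E₂ : CuspForm (Gamma0 N) k →ₗ[ℂ] PowerSeries ℂ :=
    ∑ m ∈ Finset.range (Fintype.card (Q N)), ∑ b ∈ Finset.range (Fintype.card (Q N) - m),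
      (LinearMap.mulLeft ℂ (w m b)) ∘ₗ
        ((qExpLin (Γ := 𝒮ℒ) (k + b * 12) N (natCast_pos' N) (natCast_mem_strictPeriods_SL N)) ∘ₗ
          (trMulPow (xForm N) b ∘ₗ cuspToMod))
  have hE₂ : FGCoeffs E₂ := FGCoeffs.sum _ _ fun m _ => FGCoeffs.sum _ _ fun b _ =>
    (((fgCoeffs_levelOne N (k + b * 12)).comp _).mulLeft (hw m b))
  refine hE₂.of_X_pow_mul M fun f => ?_
  -- the identity of `q`-expansions
  have hid := congrArg (qExpansion (N : ℝ)) (key_identity N (cuspToMod f))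
  have hF : Nice (N : ℝ) (cuspToMod f : ℍ → ℂ) :=
    Nice.of_modularForm (natCast_pos' N) (natCast_mem_strictPeriods_Gamma0 N) (cuspToMod f)
  have hP : Nice (N : ℝ) (∏ q ∈ (Finset.univ : Finset (Q N)).erase (q0 N),
      ((xForm N : ℍ → ℂ) - quotientFunc (xForm N) q)) :=
    Nice.prod _ _ fun q _ => (nice_xForm N).sub (nice_quotientFunc_xForm N q)
  rw [qExpansion_mul hF hP, hprod, qExpansion_sum' _ _ (fun m _ => Nice.sum _ _ fun b _ =>
    (qExpansion_term N _ _ _ _).1)] at hid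
  simp only [qExpansion_sum' _ _ (fun b _ => (qExpansion_term N _ _ _ _).1),
    (qExpansion_term N _ _ _ _).2] at hid
  have hE₂f : E₂ f = (PowerSeries.C C⁻¹ * V.map (algebraMap (zetaRing N) ℂ)) *
      ∑ m ∈ Finset.range (Fintype.card (Q N)), ∑ b ∈ Finset.range (Fintype.card (Q N) - m),
        ((-1 : ℂ) ^ m) • (qExpansion (N : ℝ) (esymmForm (xForm N) m) *
          qExpansion (N : ℝ) (trMulPow (xForm N) b (cuspToMod f)) *
          qExpansion (N : ℝ) (xForm N) ^ (Fintype.card (Q N) - 1 - m - b)) := by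
    simp only [E₂, w, LinearMap.coe_sum, Finset.sum_apply, LinearMap.coe_comp, Function.comp_apply,
      LinearMap.mulLeft_apply, qExpLin_apply, Finset.mul_sum, PowerSeries.smul_eq_C_mul]
    refine Finset.sum_congr rfl fun m _ => Finset.sum_congr rfl fun b _ => ?_
    ring
  rw [hE₂f, ← hid]
  simp only [LinearMap.coe_comp, Function.comp_apply, qExpLin_apply, PowerSeries.smul_eq_C_mul]
  linear_combination (-(PowerSeries.X ^ M * qExpansion (N : ℝ) (cuspToMod f) *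
    PowerSeries.C C⁻¹ * PowerSeries.C C)) * hUV -
    (PowerSeries.X ^ M * qExpansion (N : ℝ) (cuspToMod f)) * hCC

/-! ### Back to period `1` -/

theorem fgCoeffs_cusp_one (N : ℕ) [NeZero N] (k : ℤ) :
    FGCoeffs ((qExpLin (Γ := Gamma0 N) k 1 one_pos (one_mem_strictPeriods_Gamma0' N)) ∘ₗ
      cuspToMod) := by
  refine (fgCoeffs_cusp_natCast N k).of_coeff fun n => Or.inr ⟨N * n, fun f => ?_⟩
  simp [coeff_qExpansion_natCast (one_mem_strictPeriods_Gamma0' N) N (cuspToMod f) (N * n),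
    Nat.mul_div_cancel_left _ (NeZero.pos N)]

end Main

end Key

/-- **Key theorem.** The `ℤ`-span of the `q`-coefficient functionals on `S_k(Γ₀(N))` is
finitely generated. -/
theorem cuspForm_coeff_lattice (N : ℕ) [NeZero N] (k : ℤ) :
    ∃ s : Finset (CuspForm (Gamma0 N) k →ₗ[ℂ] ℂ), ∀ n : ℕ,
      ∃ c : (CuspForm (Gamma0 N) k →ₗ[ℂ] ℂ) → ℤ, ∀ f : CuspForm (Gamma0 N) k,
        (qExpansion 1 f).coeff n = ∑ ψ ∈ s, (c ψ : ℂ) * ψ f := by
  obtain ⟨s, hs⟩ := (Key.fgCoeffs_cusp_one N k).to_finset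
  refine ⟨s, fun n => ?_⟩
  obtain ⟨c, hc⟩ := hs n
  refine ⟨c, fun f => ?_⟩
  rw [← hc f]
  simp [Key.qExpLin_apply, cuspToMod_coe]

end Fermat.Agent.S22
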